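import Fermat.Agent.ModEq.Bar
import Fermat.Agent.ModEq.Triples
import Fermat.Agent.X0Fn.Field
import Fermat.Agent.ES.CosetPairs
import Fermat.Prelude.Def_ModularCurve_HeckeOperator

/-!
# The degree of the degeneracy map between `X₀(Nℓ)` and `X₀(N)`
-/

set_option autoImplicit false

noncomputable section

open HahnSeries ModularCurve IntermediateField AlgebraicCurve

set_option synthInstance.maxHeartbeats 400000
set_option maxHeartbeats 1000000

namespace FLTAgent.Kronecker

local notation "LL" => AlgebraicClosure ℚ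

/-- A complex embedding of the algebraic numbers. -/
def complexEmb : LL →+* ℂ :=
  haveI : Algebra.IsAlgebraic ℚ LL := AlgebraicClosure.isAlgebraic ℚ
  (IsAlgClosed.lift : LL →ₐ[ℚ] ℂ).toRingHom

variable (N : ℕ) [NeZero N]

/-- `j` in the function field of level `N`. -/
def jEl : modularFunctionFieldBar N :=
  ⟨jqModC LL, by rw [ModEq.modularFunctionFieldBar_eq]; exact jqModC_mem LL N⟩

/-- `j_N` in the function field of level `N`. -/
def jNEl : modularFunctionFieldBar N :=
  ⟨jqNModC LL N, by rw [ModEq.modularFunctionFieldBar_eq]; exact jqNModC_mem LL N⟩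

@[simp] theorem coe_jEl : (jEl N : LaurentSeries LL) = jqModC LL := rfl

@[simp] theorem coe_jNEl : (jNEl N : LaurentSeries LL) = jqNModC LL N := rfl

/-- Ring maps out of the function field are determined by constants, `j` and `j_N`. -/
theorem ringHom_ext {M : Type*} [Field M] (f g : modularFunctionFieldBar N →+* M)
    (hc : ∀ c : LL, f (algebraMap LL _ c) = g (algebraMap LL _ c))
    (hj : f (jEl N) = g (jEl N)) (hjN : f (jNEl N) = g (jNEl N)) : f = g := by
  refine RingHom.ext fun z => ?_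
  obtain ⟨z, hz⟩ := z
  have key : ∀ w : LaurentSeries LL, w ∈ modularFunctionFieldC LL N →
      ∃ hw : w ∈ modularFunctionFieldBar N, f ⟨w, hw⟩ = g ⟨w, hw⟩ := by
    intro w hw
    induction hw using IntermediateField.adjoin_induction with
    | mem y hy =>
      rcases hy with rfl | rfl
      · exact ⟨(jEl N).2, hj⟩
      · exact ⟨(jNEl N).2, hjN⟩
    | algebraMap c => exact ⟨(algebraMap LL (modularFunctionFieldBar N) c).2, hc c⟩
    | add y y' _ _ h h' =>
      obtain ⟨hy, ey⟩ := h
      obtain ⟨hy', ey'⟩ := h'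
      exact ⟨add_mem hy hy', by
        rw [show (⟨y + y', add_mem hy hy'⟩ : modularFunctionFieldBar N) = ⟨y, hy⟩ + ⟨y', hy'⟩
          from rfl, map_add, map_add, ey, ey']⟩
    | inv y _ h =>
      obtain ⟨hy, ey⟩ := h
      exact ⟨inv_mem hy, by
        rw [show (⟨y⁻¹, inv_mem hy⟩ : modularFunctionFieldBar N) = (⟨y, hy⟩)⁻¹ from rfl,
          map_inv₀, map_inv₀, ey]⟩
    | mul y y' _ _ h h' =>
      obtain ⟨hy, ey⟩ := h
      obtain ⟨hy', ey'⟩ := h'
      exact ⟨mul_mem hy hy', by
        rw [show (⟨y * y', mul_mem hy hy'⟩ : modularFunctionFieldBar N) = ⟨y, hy⟩ * ⟨y', hy'⟩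
          from rfl, map_mul, map_mul, ey, ey']⟩
  obtain ⟨_, h⟩ := key z (by rw [← ModEq.modularFunctionFieldBar_eq]; exact hz)
  exact h

theorem finrank_adjoin_jEl :
    Module.finrank LL⟮jEl N⟯ (modularFunctionFieldBar N) = dedekindPsi N := by
  have h1 : jEl N = X0Fn.jF LL N := by
    apply Subtype.ext
    show jqModC LL = coeffEmb LL jq
    rw [coeffEmb, ← jqModC_rat, coeffMap_jqModC]
  rw [h1, (X0Fn.isFunctionField_and_finrank (K := LL) (N := N) complexEmb).2,
    ← Nat.card_eq_fintype_card, ES.card_cosets_eq_psi]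

instance isFunctionField : Curves.IsFunctionField LL (modularFunctionFieldBar N) :=
  (X0Fn.isFunctionField_and_finrank (K := LL) (N := N) complexEmb).1

theorem finiteDimensional_adjoin_jEl :
    FiniteDimensional LL⟮jEl N⟯ (modularFunctionFieldBar N) := by
  refine FiniteDimensional.of_finrank_pos ?_
  rw [finrank_adjoin_jEl]
  exact Finset.sum_pos' (fun _ _ => Nat.zero_le _)
    ⟨1, Finset.mem_filter.2 ⟨Nat.one_mem_divisors.2 (NeZero.ne N), squarefree_one⟩, by
      simp [Nat.pos_of_ne_zero (NeZero.ne N)]⟩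

/-- The degree of the map forgetting the level structure at `ℓ`. -/
theorem finrankAlong_alpha (ℓ : ℕ) [Fact ℓ.Prime] (hℓN : ¬ ℓ ∣ N) :
    haveI : NeZero ℓ := ⟨(Fact.out : ℓ.Prime).ne_zero⟩
    FiniteAlong LL (heckeAlphaBar LL N ℓ) ∧
      finrankAlong LL (heckeAlphaBar LL N ℓ) = ℓ + 1 := by
  haveI : NeZero ℓ := ⟨(Fact.out : ℓ.Prime).ne_zero⟩
  set φ := heckeAlphaBar LL N ℓ
  have hφj : φ (jEl N) = jEl (N * ℓ) := Subtype.ext (coe_heckeAlphaBar N ℓ _)
  let e : LL⟮jEl N⟯ ≃+* LL⟮jEl (N * ℓ)⟯ :=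
    ((LL⟮jEl N⟯).equivMap φ).toRingEquiv.trans
      (IntermediateField.equivOfEq (show (LL⟮jEl N⟯).map φ = LL⟮jEl (N * ℓ)⟯ by
        rw [IntermediateField.adjoin_map, Set.image_singleton, hφj])).toRingEquiv
  letI := algebraAlong φ
  letI algJ : Algebra LL⟮jEl N⟯ (modularFunctionFieldBar (N * ℓ)) :=
    ((algebraMap (modularFunctionFieldBar N) (modularFunctionFieldBar (N * ℓ))).comp
      (algebraMap LL⟮jEl N⟯ (modularFunctionFieldBar N))).toAlgebra
  haveI : IsScalarTower LL⟮jEl N⟯ (modularFunctionFieldBar N) (modularFunctionFieldBar (N * ℓ)) :=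
    IsScalarTower.of_algebraMap_eq fun _ => rfl
  have hcomm : (algebraMap LL⟮jEl (N * ℓ)⟯ (modularFunctionFieldBar (N * ℓ))).comp e.toRingHom =
      (RingEquiv.refl (modularFunctionFieldBar (N * ℓ))).toRingHom.comp
        (algebraMap LL⟮jEl N⟯ (modularFunctionFieldBar (N * ℓ))) := RingHom.ext fun _ => rfl
  have hbig : Module.finrank LL⟮jEl N⟯ (modularFunctionFieldBar (N * ℓ)) =
      dedekindPsi (N * ℓ) := by
    exact (Algebra.finrank_eq_of_equiv_equiv e (RingEquiv.refl _) hcomm).trans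
      (finrank_adjoin_jEl (N * ℓ))
  have hpos : 0 < dedekindPsi N := by
    rw [← finrank_adjoin_jEl]
    haveI := finiteDimensional_adjoin_jEl N
    exact Module.finrank_pos
  haveI : FiniteDimensional LL⟮jEl N⟯ (modularFunctionFieldBar (N * ℓ)) := by
    refine FiniteDimensional.of_finrank_pos ?_
    rw [hbig, ModEq.dedekindPsi_mul_prime_of_not_dvd Fact.out hℓN]
    exact Nat.mul_pos (Nat.succ_pos _) hpos
  have hfin : Module.Finite (modularFunctionFieldBar N) (modularFunctionFieldBar (N * ℓ)) :=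
    Module.Finite.of_restrictScalars_finite LL⟮jEl N⟯ _ _
  refine ⟨hfin, ?_⟩
  have h := Module.finrank_mul_finrank LL⟮jEl N⟯ (modularFunctionFieldBar N)
    (modularFunctionFieldBar (N * ℓ))
  rw [finrank_adjoin_jEl, hbig, ModEq.dedekindPsi_mul_prime_of_not_dvd Fact.out hℓN,
    mul_comm (ℓ + 1)] at h
  exact Nat.eq_of_mul_eq_mul_left hpos h

end FLTAgent.Kronecker
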