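import Fermat.Agent.Kronecker.Cover
import Fermat.Agent.Kronecker.Degree
import Fermat.Prelude.Def_ModularCurve_HeckeOperatorTotal

/-!
# The inputs of the Hecke operators on `J₀(N)`
-/

set_option autoImplicit false

noncomputable section

set_option synthInstance.maxHeartbeats 400000
set_option maxHeartbeats 1000000

open AlgebraicCurve ModularCurve FLTAgent.Curves

namespace FLTAgent.Kronecker

variable {K F F' : Type*} [Field K] [Field F] [Field F'] [Algebra K F] [Algebra K F']
  [IsAlgClosed K] [IsFunctionField K F] [IsFunctionField K F']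

omit [IsAlgClosed K] in
theorem finiteAlong (φ : F →ₐ[K] F') : FiniteAlong K φ := by
  let : Algebra F F' := algebraAlong φ
  have := isScalarTower_along φ
  exact moduleFinite_of_functionField K

omit [IsAlgClosed K] in
theorem isIntegralAlong (φ : F →ₐ[K] F') : φ.toRingHom.IsIntegral := by
  let : Algebra F F' := algebraAlong φ
  have : Module.Finite F F' := finiteAlong φ
  exact (Algebra.IsIntegral.of_finite F F').isIntegral

theorem fundamentalIdentityAlong [HasPrincipalDivisors K F'] (φ : F →ₐ[K] F')
    (hφ : φ.toRingHom.IsIntegral) : FundamentalIdentityAlong K φ hφ := by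
  let : Algebra F F' := algebraAlong φ
  have := isScalarTower_along φ
  have := isIntegral_along φ hφ
  exact fundamentalIdentity

theorem normFormulaAlong (φ : F →ₐ[K] F') (hfin : FiniteAlong K φ) :
    NormFormulaAlong K φ hfin := by
  classical
  let : Algebra F F' := algebraAlong φ
  have := isScalarTower_along φ
  have : Module.Finite F F' := hfin
  have := Algebra.IsIntegral.of_finite F F'
  have : HasPrincipalDivisors K F' := hasPrincipalDivisors
  intro f hf D hD v
  rw [ord_norm v hf, Divisor.pushforward_apply]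
  have hone : ∀ w : Place K F', (w.inertiaDeg F : ℤ) = 1 := by
    intro w
    have h := w.deg_restrict_mul_inertiaDeg (F := F)
    rw [deg_eq_one, deg_eq_one, one_mul] at h
    rw [h, Nat.cast_one]
  simp only [hone, mul_one]
  rw [← Finset.sum_filter]
  refine Eq.trans ?_ (Finset.sum_congr rfl fun w _ => hD w)
  refine (Finset.sum_subset ?_ ?_).trans rfl
  · intro w hw
    rw [Place.mem_fiber]
    exact (Finset.mem_filter.1 hw).2
  · intro w hw hw'
    rw [Place.mem_fiber] at hw
    by_contra h0
    exact hw' (Finset.mem_filter.2 ⟨Finsupp.mem_support_iff.2 h0, hw⟩)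

/-- All Hecke operators on `J₀(N)` over `ℚ̄` are the genuine correspondences. -/
theorem heckeInputsAlong (N ℓ : ℕ) [NeZero N] [NeZero ℓ] :
    HeckeInputsAlong (AlgebraicClosure ℚ) N ℓ := by
  haveI : NeZero (N * ℓ) := ⟨Nat.mul_ne_zero (NeZero.ne N) (NeZero.ne ℓ)⟩
  haveI : HasPrincipalDivisors (AlgebraicClosure ℚ) (modularFunctionFieldBar (N * ℓ)) :=
    hasPrincipalDivisors
  exact heckeInputsAlong_intro (isIntegralAlong _) (isIntegralAlong _)
    (fundamentalIdentityAlong _ _) (finiteAlong _) (normFormulaAlong _ _)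

/-- The Hecke operator on a divisor class. -/
theorem heckeOperatorAlong_mk (N ℓ : ℕ) [NeZero N] [NeZero ℓ]
    [HasPrincipalDivisors (AlgebraicClosure ℚ) (modularFunctionFieldBar (N * ℓ))]
    (hα : HeckeAlphaBarIntegral (AlgebraicClosure ℚ) N ℓ)
    (hβ : HeckeBetaBarIntegral (AlgebraicClosure ℚ) N ℓ)
    (D : Divisor.degZero (K := AlgebraicClosure ℚ) (F := modularFunctionFieldBar N)) :
    ∃ h : heckeDivBar hα hβ (D : Divisor _ _) ∈
        Divisor.degZero (K := AlgebraicClosure ℚ) (F := modularFunctionFieldBar N),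
      heckeOperatorAlong (AlgebraicClosure ℚ) N ℓ (Pic0.mk D) = Pic0.mk ⟨_, h⟩ := by
  haveI : NeZero (N * ℓ) := ⟨Nat.mul_ne_zero (NeZero.ne N) (NeZero.ne ℓ)⟩
  refine ⟨Divisor.correspondence_mem_degZero _ _ hβ hα (fundamentalIdentityAlong _ hβ) D.2, ?_⟩
  rw [heckeOperatorAlong_eq hα hβ (fundamentalIdentityAlong _ _) (finiteAlong _)
    (normFormulaAlong _ _)]
  rfl

end FLTAgent.Kronecker
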