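import Fermat.Agent.Kronecker.Inputs
import Fermat.Agent.ModEq.Embeddings

/-!
# The conjugates of `h(q^ℓ)` over the function field of level `N`

For a prime `ℓ ∤ N` the norm from level `Nℓ` to level `N` of `h(q^ℓ)` is the product of
`h(q^ℓ)` and of the `h(ζ^b q^{1/ℓ})`.
-/

set_option autoImplicit false

noncomputable section

set_option synthInstance.maxHeartbeats 400000
set_option maxHeartbeats 1000000
set_option linter.style.haveILetI false

open AlgebraicCurve ModularCurve Polynomial FLTAgent.ModEq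

namespace FLTAgent.Kronecker

local notation "LL" => AlgebraicClosure ℚ

theorem evalRel_map {A B : Type*} [CommRing A] [CommRing B] (f : A →+* B)
    (P : Polynomial (Polynomial ℤ)) (x y : A) :
    f ((P.map (evalAt x)).eval y) = (P.map (evalAt (f x))).eval (f y) := by
  rw [← eval_map_apply, Polynomial.map_map, comp_evalAt]

theorem exists_root_of_prod {A B : Type*} [CommRing A] [CommRing B] [IsDomain B] (ι : A →+* B)
    (P : Polynomial (Polynomial ℤ)) {J : A} {σ : Type*} {s : Finset σ} {r : σ → A}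
    (hP : P.map (evalAt J) = ∏ t ∈ s, (Polynomial.X - Polynomial.C (r t))) {y : B}
    (hy : (P.map (evalAt (ι J))).eval y = 0) : ∃ t ∈ s, y = ι (r t) := by
  have h : P.map (evalAt (ι J)) = (P.map (evalAt J)).map ι := by
    rw [Polynomial.map_map, comp_evalAt]
  rw [h, hP, Polynomial.map_prod, eval_prod, Finset.prod_eq_zero_iff] at hy
  obtain ⟨t, ht, hyt⟩ := hy
  simp only [Polynomial.map_sub, Polynomial.map_X, Polynomial.map_C, eval_sub, eval_X, eval_C,
    sub_eq_zero] at hyt
  exact ⟨t, ht, hyt⟩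

theorem qExpand_algebraMap {K : Type*} [Field K] (m : ℕ) [NeZero m] (c : K) :
    qExpand K m (algebraMap K (LaurentSeries K) c) = algebraMap K (LaurentSeries K) c := by
  rw [algebraMap_laurentSeries_eq_single, qExpand_single, mul_zero]

theorem twist_algebraMap {K : Type*} [Field K] (u : Kˣ) (c : K) :
    twist u (algebraMap K (LaurentSeries K) c) = algebraMap K (LaurentSeries K) c := by
  rw [algebraMap_laurentSeries_eq_single]
  ext k
  rw [twist_coeff]
  rcases eq_or_ne k 0 with rfl | hk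
  · simp
  · simp [HahnSeries.coeff_single_of_ne hk]

theorem substHom_algebraMap {K : Type*} [Field K] (u : Kˣ) (m : ℕ) [NeZero m] (c : K) :
    substHom u m (algebraMap K (LaurentSeries K) c) = algebraMap K (LaurentSeries K) c := by
  rw [substHom_apply, twist_algebraMap, qExpand_algebraMap]

/-- The triples at prime level. -/
theorem prim_prime_cases {ℓ : ℕ} (hℓ : ℓ.Prime) {t : ℕ × ℕ × ℕ} (ht : IsPrim ℓ t) :
    t = (ℓ, 0, 1) ∨ ∃ b, b < ℓ ∧ t = (1, b, ℓ) := by
  obtain ⟨a, b, d⟩ := t
  obtain ⟨h1, h2, -⟩ := ht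
  simp only at h1 h2
  rcases hℓ.eq_one_or_self_of_dvd a ⟨d, h1.symm⟩ with ha | ha
  · subst ha
    rw [one_mul] at h1
    subst h1
    exact Or.inr ⟨b, h2, rfl⟩
  · subst ha
    have hd : d = 1 := Nat.eq_of_mul_eq_mul_left hℓ.pos (by rw [h1, mul_one])
    subst hd
    obtain rfl : b = 0 := by omega
    exact Or.inl rfl

variable (N ℓ : ℕ) [NeZero N] [Fact ℓ.Prime]

instance neZero_of_fact_prime : NeZero ℓ := ⟨(Fact.out : ℓ.Prime).ne_zero⟩

/-- The norm from level `Nℓ` down to level `N`. -/
def normAlpha (x : modularFunctionFieldBar (N * ℓ)) : modularFunctionFieldBar N :=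
  letI := algebraAlong (heckeAlphaBar LL N ℓ)
  Algebra.norm (modularFunctionFieldBar N) x

/-- The substitutions giving the conjugates. -/
def conjSubst (ζ : LLˣ) : Option (Fin ℓ) → (LaurentSeries LL →+* LaurentSeries LL)
  | none => qExpand LL (ℓ * (N * ℓ))
  | some b => substHom (ζ ^ ((b : ℕ) * N)) N

variable {N ℓ}

theorem conjSubst_algebraMap (ζ : LLˣ) (i : Option (Fin ℓ)) (c : LL) :
    conjSubst N ℓ ζ i (algebraMap LL _ c) = algebraMap LL _ c := by
  cases i
  · exact qExpand_algebraMap _ c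
  · exact substHom_algebraMap _ _ c

theorem conjSubst_jqModC_injective {ζ : LLˣ} (hζ : IsPrimitiveRoot ζ (N * ℓ)) :
    Function.Injective fun i => conjSubst N ℓ ζ i (jqModC LL) := by
  have hN : 0 < N := Nat.pos_of_ne_zero (NeZero.ne N)
  have hℓ : 1 < ℓ := (Fact.out : ℓ.Prime).one_lt
  have hne : ∀ b : Fin ℓ, conjSubst N ℓ ζ (some b) (jqModC LL) ≠
      conjSubst N ℓ ζ none (jqModC LL) := by
    intro b h
    simp only [conjSubst] at h
    rw [← substHom_one, ← jAt_eq, ← jAt_eq] at h
    have := (jAt_injective (NeZero.ne N) (NeZero.ne _) h).1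
    have h1 : N * 1 < ℓ * (N * ℓ) := by
      rw [mul_one]
      calc N = 1 * (N * 1) := by ring
        _ < ℓ * (N * ℓ) := Nat.mul_lt_mul_of_lt_of_le hℓ (Nat.mul_le_mul_left N hℓ.le) (by positivity)
    omega
  intro i k h
  rcases i with _ | b <;> rcases k with _ | c
  · rfl
  · exact absurd h.symm (hne c)
  · exact absurd h (hne b)
  · simp only [conjSubst] at h
    rw [← jAt_eq, ← jAt_eq] at h
    have h2 := (jAt_injective (NeZero.ne N) (NeZero.ne N) h).2
    have h3 := hζ.pow_inj (i := (b : ℕ) * N) (j := (c : ℕ) * N)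
      (by rw [mul_comm N ℓ]; exact Nat.mul_lt_mul_of_pos_right b.2 hN)
      (by rw [mul_comm N ℓ]; exact Nat.mul_lt_mul_of_pos_right c.2 hN) h2
    exact congrArg some (Fin.ext (Nat.eq_of_mul_eq_mul_right hN h3))

variable (hℓN : ¬ ℓ ∣ N)
include hℓN

/-- An embedding of level `Nℓ` extending `q ↦ t^{Nℓ}` on level `N` is one of the substitutions
on the image of `h ↦ h(q^ℓ)`. -/
theorem exists_conjSubst_eq {ζ : LLˣ} (hζ : IsPrimitiveRoot ζ (N * ℓ)) {Ω : Type*} [Field Ω]
    (ι : LaurentSeries LL →+* Ω) (E : modularFunctionFieldBar (N * ℓ) →+* Ω)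
    (hE : ∀ h : modularFunctionFieldBar N, E (heckeAlphaBar LL N ℓ h) =
      ι (qExpand LL (N * ℓ) (h : LaurentSeries LL))) :
    ∃ i, ∀ h : modularFunctionFieldBar N, E (heckeBetaBar LL N ℓ h) =
      ι (conjSubst N ℓ ζ i (h : LaurentSeries LL)) := by
  have hℓp : ℓ.Prime := Fact.out
  have hN : 0 < N := Nat.pos_of_ne_zero (NeZero.ne N)
  set α := heckeAlphaBar LL N ℓ
  set β := heckeBetaBar LL N ℓ
  set Pℓ := (modularPolynomialData ℓ).Φ
  set PN := (modularPolynomialData N).Φ
  set V : modularFunctionFieldBar (N * ℓ) →+* LaurentSeries LL :=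
    (modularFunctionFieldBar (N * ℓ)).val.toRingHom
  have hV : Function.Injective V := Subtype.val_injective
  -- relations
  have R1 : (Pℓ.map (evalAt (α (jEl N)))).eval (β (jEl N)) = 0 := hV <| by
    rw [map_zero, evalRel_map]
    exact eval_modularPolynomial LL (modularPolynomialData ℓ)
  have R3 : (PN.map (evalAt (β (jEl N)))).eval (β (jNEl N)) = 0 := by
    have h0 : (PN.map (evalAt (jEl N))).eval (jNEl N) = 0 :=
      Subtype.val_injective (show (modularFunctionFieldBar N).val.toRingHom _ = _ by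
        rw [evalRel_map]
        exact eval_modularPolynomial LL (modularPolynomialData N))
    have h1 := congrArg β.toRingHom h0
    rw [evalRel_map, map_zero] at h1
    exact h1
  have R2 : (Pℓ.map (evalAt (α (jNEl N)))).eval (β (jNEl N)) = 0 := hV <| by
    have h := evalRel_map (qExpand LL N) Pℓ (jqModC LL) (jqNModC LL ℓ)
    rw [eval_modularPolynomial LL (modularPolynomialData ℓ), map_zero] at h
    rw [map_zero, evalRel_map]
    refine Eq.trans ?_ h.symm
    congr 1
    show qExpand LL ℓ (qExpand LL N (jqModC LL)) = qExpand LL N (qExpand LL ℓ (jqModC LL))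
    rw [qExpand_qExpand, qExpand_qExpand]
    exact qExpand_congr (mul_comm ℓ N) _
  have hconst : ∀ c : LL, E (algebraMap LL _ c) = ι (algebraMap LL _ c) := by
    intro c
    rw [← α.commutes c, hE]
    exact congrArg ι (qExpand_algebraMap (N * ℓ) c)
  -- the image of `β j`
  have hj : E (α (jEl N)) = ι (jAt (1 : LLˣ) (N * ℓ)) := by
    rw [hE, jAt_one_left]; rfl
  have hy : (Pℓ.map (evalAt (ι (jAt (1 : LLˣ) (N * ℓ))))).eval (E (β (jEl N))) = 0 := by
    rw [← hj, ← evalRel_map, R1, map_zero]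
  obtain ⟨t, ht, hty⟩ := exists_root_of_prod ι Pℓ
    (map_evalAt_modularPolynomial hζ (dvd_mul_left ℓ N) (modularPolynomialData ℓ)) hy
  -- candidates for the image of `β j_N`
  have hjN : E (α (jNEl N)) = ι (qExpand LL N (jAt (1 : LLˣ) (N * ℓ))) := by
    rw [hE, coe_jNEl, jqNModC, jAt_one_left, jqNModC, qExpand_qExpand, qExpand_qExpand]
    exact congrArg ι (qExpand_congr (mul_comm _ _) _)
  have hprodℓ : Pℓ.map (evalAt (qExpand LL N (jAt (1 : LLˣ) (N * ℓ)))) =
      ∏ t ∈ primTriples ℓ, (Polynomial.X - Polynomial.C (qExpand LL N (tSer ζ (N * ℓ) t))) := by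
    rw [← comp_evalAt, ← Polynomial.map_map,
      map_evalAt_modularPolynomial hζ (dvd_mul_left ℓ N) (modularPolynomialData ℓ),
      Polynomial.map_prod]
    simp
  have hz : (Pℓ.map (evalAt (ι (qExpand LL N (jAt (1 : LLˣ) (N * ℓ)))))).eval (E (β (jNEl N))) = 0 := by
    rw [← hjN, ← evalRel_map, R2, map_zero]
  obtain ⟨t', ht', htz⟩ := exists_root_of_prod ι Pℓ hprodℓ hz
  have horder : ∃ (u : LLˣ) (m : ℕ), (m = N * N * (ℓ * ℓ) ∨ m = N * N) ∧
      qExpand LL N (tSer ζ (N * ℓ) t') = jAt u m := by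
    rcases prim_prime_cases hℓp (mem_primTriples.1 ht') with h | ⟨b, -, h⟩
    · subst h
      refine ⟨ζ ^ (0 * ((N * ℓ) / 1)), N * (ℓ * ((N * ℓ) / 1)), Or.inl ?_, ?_⟩
      swap
      · haveI : NeZero (ℓ * ((N * ℓ) / 1)) := ⟨by
          rw [Nat.div_one]; exact mul_ne_zero hℓp.ne_zero (mul_ne_zero hN.ne' hℓp.ne_zero)⟩
        rw [tSer_def, qExpand_jAt]
      · rw [Nat.div_one]; ring
    · subst h
      refine ⟨ζ ^ (b * ((N * ℓ) / ℓ)), N * (1 * ((N * ℓ) / ℓ)), Or.inr ?_, ?_⟩
      swap
      · haveI : NeZero (1 * ((N * ℓ) / ℓ)) := ⟨by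
          rw [one_mul, Nat.mul_div_cancel N hℓp.pos]; exact hN.ne'⟩
        rw [tSer_def, qExpand_jAt]
      · rw [one_mul, Nat.mul_div_cancel N hℓp.pos]
  obtain ⟨u', m', hm', hu'⟩ := horder
  have hzv : E (β (jNEl N)) = ι (jAt u' m') := by rw [htz, hu']
  have hζN : IsPrimitiveRoot (ζ ^ ℓ) N := hζ.pow (Nat.mul_pos hN hℓp.pos) (mul_comm N ℓ)
  rcases prim_prime_cases hℓp (mem_primTriples.1 ht) with h | ⟨b, hb, h⟩
  · subst h
    refine ⟨none, fun h => ?_⟩
    have hye : E (β (jEl N)) = ι (conjSubst N ℓ ζ none (jqModC LL)) := by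
      rw [hty, tSer_def, Nat.div_one, zero_mul, pow_zero, jAt_one_left]; rfl
    have hprodN : PN.map (evalAt (conjSubst N ℓ ζ none (jqModC LL))) =
        ∏ t ∈ primTriples N, (Polynomial.X - Polynomial.C
          (qExpand LL (ℓ * ℓ) (tSer (ζ ^ ℓ) N t))) := by
      have e : conjSubst N ℓ ζ none (jqModC LL) = qExpand LL (ℓ * ℓ) (jAt (1 : LLˣ) N) := by
        rw [jAt_one_left, jqNModC, qExpand_qExpand]
        exact qExpand_congr (by ring) _
      rw [e, ← comp_evalAt, ← Polynomial.map_map,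
        map_evalAt_modularPolynomial hζN dvd_rfl (modularPolynomialData N), Polynomial.map_prod]
      simp
    obtain ⟨⟨a, c, d⟩, hs, hsz⟩ := exists_root_of_prod ι PN hprodN (y := E (β (jNEl N))) (by
      rw [← hye, ← evalRel_map, R3, map_zero])
    rw [hzv] at hsz
    have hsz' := ι.injective hsz
    obtain ⟨had, hcd, -⟩ := mem_primTriples.1 hs
    simp only at had hcd
    have ha0 : 0 < a := Nat.pos_of_ne_zero fun h0 => by simp [h0] at had; omega
    have hd0 : 0 < d := by omega
    have hNd : N / d = a := by rw [← had, Nat.mul_div_cancel _ hd0]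
    haveI : NeZero (a * (N / d)) := ⟨by rw [hNd]; positivity⟩
    rw [tSer_def, qExpand_jAt] at hsz'
    have hmne : m' ≠ 0 := by rcases hm' with rfl | rfl <;> simp [NeZero.ne N, NeZero.ne ℓ]
    obtain ⟨hm, hu⟩ := jAt_injective hmne (NeZero.ne _) hsz'
    rw [hNd] at hm
    have haN : a = N := by
      rcases hm' with h1 | h1
      · have h2 : (ℓ * a) ^ 2 = (ℓ * N) ^ 2 := by rw [hm] at h1; linarith
        exact Nat.eq_of_mul_eq_mul_left hℓp.pos (Nat.pow_left_injective two_ne_zero h2)
      · exfalso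
        have h2 : (ℓ * a) ^ 2 = N ^ 2 := by rw [hm] at h1; linarith
        exact hℓN ⟨a, (Nat.pow_left_injective two_ne_zero h2).symm⟩
    subst haN
    obtain rfl : d = 1 := Nat.eq_of_mul_eq_mul_left hN (by rw [had, mul_one])
    obtain rfl : c = 0 := by omega
    refine DFunLike.congr_fun (ringHom_ext a (E.comp β.toRingHom)
      ((ι.comp (conjSubst a ℓ ζ none)).comp (modularFunctionFieldBar a).val.toRingHom)
      (fun c => ?_) hye ?_) h
    · show E (β (algebraMap LL _ c)) = ι (conjSubst a ℓ ζ none (algebraMap LL _ c))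
      rw [conjSubst_algebraMap, β.commutes, hconst]
    · show E (β (jNEl a)) = ι (qExpand LL (ℓ * (a * ℓ)) (qExpand LL a (jqModC LL)))
      rw [hzv, hu, zero_mul, pow_zero, hm, jAt_one_left, jqNModC, qExpand_qExpand]
      exact congrArg ι (qExpand_congr (by ring) _)
  · subst h
    refine ⟨some ⟨b, hb⟩, fun h => ?_⟩
    have hye : E (β (jEl N)) = ι (conjSubst N ℓ ζ (some ⟨b, hb⟩) (jqModC LL)) := by
      rw [hty, tSer_def, one_mul, Nat.mul_div_cancel N hℓp.pos, jAt_eq]; rfl
    have hprodN : PN.map (evalAt (conjSubst N ℓ ζ (some ⟨b, hb⟩) (jqModC LL))) =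
        ∏ t ∈ primTriples N, (Polynomial.X - Polynomial.C
          (substHom (ζ ^ b) 1 (tSer (ζ ^ ℓ) N t))) := by
      have e : conjSubst N ℓ ζ (some ⟨b, hb⟩) (jqModC LL) =
          substHom (ζ ^ b) 1 (jAt (1 : LLˣ) N) := by
        rw [substHom_jAt, one_mul, ← pow_mul, one_mul, jAt_eq]; rfl
      rw [e, ← comp_evalAt, ← Polynomial.map_map,
        map_evalAt_modularPolynomial hζN dvd_rfl (modularPolynomialData N), Polynomial.map_prod]
      simp
    obtain ⟨⟨a, c, d⟩, hs, hsz⟩ := exists_root_of_prod ι PN hprodN (y := E (β (jNEl N))) (by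
      rw [← hye, ← evalRel_map, R3, map_zero])
    rw [hzv] at hsz
    have hsz' := ι.injective hsz
    obtain ⟨had, hcd, -⟩ := mem_primTriples.1 hs
    simp only at had hcd
    have ha0 : 0 < a := Nat.pos_of_ne_zero fun h0 => by simp [h0] at had; omega
    have hd0 : 0 < d := by omega
    have hNd : N / d = a := by rw [← had, Nat.mul_div_cancel _ hd0]
    haveI : NeZero (a * (N / d)) := ⟨by rw [hNd]; positivity⟩
    rw [tSer_def, substHom_jAt] at hsz'
    have hmne : m' ≠ 0 := by rcases hm' with rfl | rfl <;> simp [NeZero.ne N, NeZero.ne ℓ]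
    obtain ⟨hm, hu⟩ := jAt_injective hmne (by rw [one_mul]; exact NeZero.ne _) hsz'
    rw [hNd, one_mul] at hm
    have haN : a = N := by
      rcases hm' with h1 | h1
      · exfalso
        have h2 : a ^ 2 = (N * ℓ) ^ 2 := by rw [hm] at h1; linarith
        have h3 := Nat.pow_left_injective two_ne_zero h2
        have h4 : a ≤ N := Nat.le_of_dvd hN ⟨d, had.symm⟩
        have h5 : N * 2 ≤ N * ℓ := Nat.mul_le_mul_left N hℓp.two_le
        omega
      · have h2 : a ^ 2 = N ^ 2 := by rw [hm] at h1; linarith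
        exact Nat.pow_left_injective two_ne_zero h2
    subst haN
    obtain rfl : d = 1 := Nat.eq_of_mul_eq_mul_left hN (by rw [had, mul_one])
    obtain rfl : c = 0 := by omega
    refine DFunLike.congr_fun (ringHom_ext a (E.comp β.toRingHom)
      ((ι.comp (conjSubst a ℓ ζ (some ⟨b, hb⟩))).comp (modularFunctionFieldBar a).val.toRingHom)
      (fun c => ?_) hye ?_) h
    · show E (β (algebraMap LL _ c)) = ι (conjSubst a ℓ ζ (some ⟨b, hb⟩) (algebraMap LL _ c))
      rw [conjSubst_algebraMap, β.commutes, hconst]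
    · show E (β (jNEl a)) = ι (substHom (ζ ^ (b * a)) a (qExpand LL a (jqModC LL)))
      rw [← jqNModC, ← jAt_one_left, substHom_jAt, hzv, hu, Nat.div_one, hm]
      congr 2
      rw [zero_mul, pow_zero, one_mul, one_mul, ← pow_mul, ← pow_mul, mul_assoc]

/-- The norm of `h(q^ℓ)`. -/
theorem qExpand_normAlpha {ζ : LLˣ} (hζ : IsPrimitiveRoot ζ (N * ℓ))
    (h : modularFunctionFieldBar N) :
    qExpand LL (N * ℓ) (normAlpha N ℓ (heckeBetaBar LL N ℓ h) : LaurentSeries LL) =
      ∏ i, conjSubst N ℓ ζ i (h : LaurentSeries LL) := by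
  classical
  obtain ⟨hfin, hdeg⟩ := finrankAlong_alpha N ℓ hℓN
  letI := algebraAlong (heckeAlphaBar LL N ℓ)
  haveI : Module.Finite (modularFunctionFieldBar N) (modularFunctionFieldBar (N * ℓ)) := hfin
  let Ω := AlgebraicClosure (LaurentSeries LL)
  let ι : LaurentSeries LL →+* Ω := algebraMap _ _
  letI : Algebra (modularFunctionFieldBar N) Ω :=
    (ι.comp ((qExpand LL (N * ℓ)).comp (modularFunctionFieldBar N).val.toRingHom)).toAlgebra
  haveI : CharZero (modularFunctionFieldBar N) :=
    charZero_of_injective_algebraMap (algebraMap LL (modularFunctionFieldBar N)).injective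
  haveI : Algebra.IsSeparable (modularFunctionFieldBar N) (modularFunctionFieldBar (N * ℓ)) :=
    Algebra.IsSeparable.of_integral _ _
  have hex : ∀ E : modularFunctionFieldBar (N * ℓ) →ₐ[modularFunctionFieldBar N] Ω,
      ∃ i, ∀ h : modularFunctionFieldBar N, E (heckeBetaBar LL N ℓ h) =
        ι (conjSubst N ℓ ζ i (h : LaurentSeries LL)) :=
    fun E => exists_conjSubst_eq hℓN hζ ι E.toRingHom fun h => E.commutes h
  choose idx hidx using hex
  have hα : ∀ x : modularFunctionFieldBar N,
      algebraMap (modularFunctionFieldBar N) (modularFunctionFieldBar (N * ℓ)) x =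
        heckeAlphaBar LL N ℓ x := fun _ => rfl
  have hjα : heckeAlphaBar LL N ℓ (jEl N) = jEl (N * ℓ) :=
    Subtype.ext (coe_heckeAlphaBar N ℓ _)
  have hinj : Function.Injective idx := by
    intro E E' he
    refine DFunLike.ext' (congrArg (⇑) (ringHom_ext (N * ℓ) E.toRingHom E'.toRingHom
      (fun c => ?_) ?_ ?_))
    · have hc : algebraMap LL (modularFunctionFieldBar (N * ℓ)) c =
          algebraMap (modularFunctionFieldBar N) (modularFunctionFieldBar (N * ℓ))
            (algebraMap LL _ c) := by rw [hα]; exact ((heckeAlphaBar LL N ℓ).commutes c).symm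
      show E _ = E' _
      rw [hc, E.commutes, E'.commutes]
    · have hc : jEl (N * ℓ) = algebraMap (modularFunctionFieldBar N)
          (modularFunctionFieldBar (N * ℓ)) (jEl N) := ((hα _).trans hjα).symm
      show E _ = E' _
      rw [hc, E.commutes, E'.commutes]
    · have hc : jNEl (N * ℓ) = heckeBetaBar LL N ℓ (jNEl N) := Subtype.ext <| by
        show qExpand LL (N * ℓ) (jqModC LL) = qExpand LL ℓ (qExpand LL N (jqModC LL))
        rw [qExpand_qExpand]
        exact qExpand_congr (mul_comm N ℓ) _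
      show E _ = E' _
      rw [hc, hidx, hidx, he]
  have hbij : Function.Bijective idx := by
    refine (Fintype.bijective_iff_injective_and_card idx).2 ⟨hinj, ?_⟩
    rw [AlgHom.card (modularFunctionFieldBar N) (modularFunctionFieldBar (N * ℓ)) Ω,
      Fintype.card_option, Fintype.card_fin]
    exact hdeg
  apply ι.injective
  rw [map_prod]
  show algebraMap (modularFunctionFieldBar N) Ω (normAlpha N ℓ (heckeBetaBar LL N ℓ h)) = _
  rw [normAlpha, Algebra.norm_eq_prod_embeddings (modularFunctionFieldBar N) Ω]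
  exact Fintype.prod_bijective idx hbij _ _ fun E => hidx E h

end FLTAgent.Kronecker
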