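import Fermat.Agent.Kronecker.BoundedDefect
import Fermat.Agent.Kronecker.Degree
import Fermat.Agent.ModEq.Basic
import Fermat.Prelude.Def_ModularCurve_ReductionModL
import Fermat.Prelude.Def_HeckeGalois_EichlerShimura

/-!
# Galois equivariance of the reduction map of `J₀(N)`

An automorphism stabilising the place `A` acts on the special fibre through the automorphism it
induces on the residue field, acting on coefficients.
-/

set_option autoImplicit false

noncomputable section

set_option synthInstance.maxHeartbeats 400000
set_option maxHeartbeats 1000000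

open AlgebraicCurve ModularCurve

namespace FLTAgent.Kronecker

local notation "LL" => AlgebraicClosure ℚ
local notation "GG" => (AlgebraicClosure ℚ ≃ₐ[ℚ] AlgebraicClosure ℚ)

section Special

variable {k : Type*} [Field k] {N : ℕ}

/-- Coefficient endomorphisms preserve the special fibre field. -/
theorem coeffMap_mem_fullC (φ : k →+* k) {x : LaurentSeries k}
    (hx : x ∈ modularFunctionFieldFullC k N) : coeffMap φ x ∈ modularFunctionFieldFullC k N := by
  induction hx using IntermediateField.adjoin_induction with
  | mem y hy =>
    obtain ⟨d, hd, hdN, rfl⟩ := hy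
    rw [coeffMap_qExpand, coeffMap_jqModC]
    exact jqModCd_mem_full k N hdN
  | algebraMap c =>
    rw [coeffMap_algebraMap]
    exact (modularFunctionFieldFullC k N).algebraMap_mem _
  | add x y _ _ hx hy => simpa using add_mem hx hy
  | inv x _ hx => simpa using inv_mem hx
  | mul x y _ _ hx hy => simpa using mul_mem hx hy

variable (N) in
/-- An automorphism of `k` acting on coefficients, as a semilinear automorphism. -/
def specialAut (φ : k ≃+* k) : SemilinearAut k (modularFunctionFieldFullC k N) :=
  ⟨({ toFun := fun x => ⟨coeffMap φ.toRingHom x, coeffMap_mem_fullC _ x.2⟩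
      invFun := fun x => ⟨coeffMap φ.symm.toRingHom x, coeffMap_mem_fullC _ x.2⟩
      left_inv := fun x => Subtype.ext <| by
        ext n
        simp
      right_inv := fun x => Subtype.ext <| by
        ext n
        simp
      map_mul' := fun x y => Subtype.ext (map_mul (coeffMap φ.toRingHom) _ _)
      map_add' := fun x y => Subtype.ext (map_add (coeffMap φ.toRingHom) _ _) }, φ),
    fun a => Subtype.ext (coeffMap_algebraMap φ.toRingHom a)⟩

theorem coe_specialAut_smul (φ : k ≃+* k) (x : modularFunctionFieldFullC k N) :
    ((specialAut N φ • x : modularFunctionFieldFullC k N) : LaurentSeries k) =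
      coeffMap φ.toRingHom (x : LaurentSeries k) :=
  rfl

theorem specialAut_refl : specialAut N (RingEquiv.refl k) = 1 := by
  refine Subtype.ext (Prod.ext (RingEquiv.ext fun x => Subtype.ext ?_) rfl)
  show coeffMap (RingHom.id k) (x : LaurentSeries k) = x
  exact coeffMap_id _

/-- A point divisor moves to a point divisor. -/
theorem abs_single_apply_le {K F : Type*} [Field K] [Field F] [Algebra K F] (P Q : Place K F) :
    |Finsupp.single P (1 : ℤ) Q| ≤ 1 := by
  classical
  rw [Finsupp.single_apply]
  split_ifs <;> simp

end Special

section Reduction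

variable (A : ValuationSubring LL) {N : ℕ} [NeZero N]

local notation "kk" => IsLocalRing.ResidueField A

/-- The action of a decomposition element on the residue field. -/
def residueAut (g : A.decompositionSubgroup ℚ) : kk ≃+* kk :=
  MulSemiringAction.toRingEquiv (A.decompositionSubgroup ℚ) kk g

theorem residueAut_apply (g : A.decompositionSubgroup ℚ) (x : kk) : residueAut A g x = g • x :=
  rfl

variable {A}

/-- The reduction map intertwines `σ` with its residual action. -/
theorem reductionModL_smul (h : ReductionInputsModL A N) (g : A.decompositionSubgroup ℚ)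
    (x : JZero N) :
    reductionModL A N ((g : GG) • x) = specialAut N (residueAut A g) • reductionModL A N x := by
  obtain ⟨D, rfl⟩ := Pic0.mk_surjective x
  rw [galois_smul_pic0_def, SemilinearAut.pic0_smul_mk, reductionModL_mk h, reductionModL_mk h,
    SemilinearAut.pic0_smul_mk]
  refine congrArg Pic0.mk (Subtype.ext ?_)
  simp only [coe_reductionDegZeroAlong, SemilinearAut.coe_degZeroSMulHom]
  set r := placeReductionModL h
  have hr := isPlaceReductionModL_placeReductionModL h
  set S := arithmeticGalois (modularFunctionFieldFull N) (g : GG)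
  set Φ := specialAut N (residueAut A g)
  let δ₁ : Divisor LL (modularFunctionFieldBar N) →+ Divisor kk (modularFunctionFieldFullC kk N) :=
    (Finsupp.mapDomain.addMonoidHom r).comp (DistribSMul.toAddMonoidHom _ S)
  let δ₂ : Divisor LL (modularFunctionFieldBar N) →+ Divisor kk (modularFunctionFieldFullC kk N) :=
    (DistribSMul.toAddMonoidHom _ Φ).comp (Finsupp.mapDomain.addMonoidHom r)
  show δ₁ D = δ₂ D
  refine eq_of_principal_of_bounded δ₁ δ₂ 1 (fun P Q => ?_) (fun P Q => ?_) (fun E hE => ?_)
    (Divisor.mem_degZero.mp D.2)
  · show |Finsupp.mapDomain r (S • Finsupp.single P (1 : ℤ)) Q| ≤ _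
    rw [SemilinearAut.smul_single, Finsupp.mapDomain_single]
    exact_mod_cast abs_single_apply_le _ _
  · show |(Φ • Finsupp.mapDomain r (Finsupp.single P (1 : ℤ))) Q| ≤ _
    rw [Finsupp.mapDomain_single, SemilinearAut.smul_single]
    exact_mod_cast abs_single_apply_le _ _
  · have hgen : PrincipalGeneratedByIntegral A (IsLocalRing.residue A) N := h.choose_spec.2
    have hE' := hgen hE
    clear hE
    induction hE' using AddSubgroup.closure_induction with
    | zero => rw [map_zero, map_zero]
    | add E E' _ _ hE hE' => rw [map_add, map_add, hE, hE']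
    | neg E _ hE => rw [map_neg, map_neg, hE]
    | mem E hE =>
      obtain ⟨y, hy, hyk, hne, hEy⟩ := hE
      let gA : A →+* A := MulSemiringAction.toRingHom (A.decompositionSubgroup ℚ) A g
      have hy' : coeffMap A.subtype (coeffMap gA y) ∈ modularFunctionFieldBar N := by
        have e : coeffMap A.subtype (coeffMap gA y) =
            coeffMap ((g : GG) : LL →+* LL) (coeffMap A.subtype y) := by
          rw [coeffMap_coeffMap, coeffMap_coeffMap]
          exact coeffMap_congr (RingHom.ext fun a => rfl) _
        rw [e]
        exact coeffMap_mem_laurentBaseChange _ hy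
      have hyk' : coeffMap (IsLocalRing.residue A) (coeffMap gA y) =
          coeffMap (residueAut A g).toRingHom (coeffMap (IsLocalRing.residue A) y) := by
        rw [coeffMap_coeffMap, coeffMap_coeffMap]
        exact coeffMap_congr (RingHom.ext fun a => rfl) _
      have hne' : coeffMap (IsLocalRing.residue A) (coeffMap gA y) ≠ 0 := by
        rw [hyk']
        exact fun h0 => hne (FLTAgent.ModEq.coeffMap_injective _ (residueAut A g).injective
          (h0.trans (map_zero _).symm))
      have hS : (⟨_, hy'⟩ : modularFunctionFieldBar N) = S • ⟨_, hy⟩ := Subtype.ext <| by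
        rw [coe_arithmeticGalois_smul]
        show coeffMap A.subtype (coeffMap gA y) =
          coeffMap ((g : GG) : LL →+* LL) (coeffMap A.subtype y)
        rw [coeffMap_coeffMap, coeffMap_coeffMap]
        exact coeffMap_congr (RingHom.ext fun a => rfl) _
      have hkmem : coeffMap (IsLocalRing.residue A) (coeffMap gA y) ∈
          modularFunctionFieldFullC kk N := by
        rw [hyk']; exact coeffMap_mem_fullC _ hyk
      refine Finsupp.ext fun Q => ?_
      show Finsupp.mapDomain r (S • E) Q = (Φ • Finsupp.mapDomain r E) Q
      rw [SemilinearAut.divisor_smul_apply, hr.2 y hy hyk hne E hEy,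
        hr.2 (coeffMap gA y) hy' hkmem hne' (S • E) (fun P => ?_)]
      · rw [show (⟨_, hkmem⟩ : modularFunctionFieldFullC kk N) = Φ • ⟨_, hyk⟩ from
          Subtype.ext hyk']
        conv_lhs => rw [← smul_inv_smul Φ Q]
        exact SemilinearAut.ord_smul _ _ _
      · rw [SemilinearAut.divisor_smul_apply, hEy, hS]
        conv_rhs => rw [← smul_inv_smul S P]
        exact (SemilinearAut.ord_smul _ _ _).symm

/-- Inertia acts trivially after reduction. -/
theorem reductionModL_smul_of_mem_inertia (σ : GG) (hσ : σ ∈ A.inertiaSubgroupIn ℚ)
    (x : JZero N) : reductionModL A N (σ • x) = reductionModL A N x := by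
  by_cases h : ReductionInputsModL A N
  · obtain ⟨g, hg, rfl⟩ := hσ
    have hid : residueAut A g = RingEquiv.refl kk := RingEquiv.ext fun z => by
      have h1 : MulSemiringAction.toRingAut (A.decompositionSubgroup ℚ) kk g = 1 := hg
      exact DFunLike.congr_fun h1 z
    rw [Subgroup.coe_subtype, reductionModL_smul h g, hid, specialAut_refl, one_smul]
  · simp [reductionModL_of_not h]

/-- A Frobenius acts through the coefficient Frobenius after reduction. -/
theorem reductionModL_smul_of_frobenius (h : ReductionInputsModL A N) {σ : GG} {ℓ : ℕ}
    (hσ : A.IsFrobeniusAt σ ℓ) (φ : kk ≃+* kk) (hφ : ∀ z, φ z = z ^ ℓ) (x : JZero N) :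
    reductionModL A N (σ • x) = specialAut N φ • reductionModL A N x := by
  have e : residueAut A ⟨σ, hσ.mem_decompositionSubgroup⟩ = φ := RingEquiv.ext fun z => by
    rw [residueAut_apply, hσ.smul_residue_eq, hφ]
  rw [← e]
  exact reductionModL_smul h ⟨σ, hσ.mem_decompositionSubgroup⟩ x

end Reduction

end FLTAgent.Kronecker
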