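import Fermat.Agent.Kronecker.Conjugates
import Fermat.Agent.Kronecker.Galois

/-!
# The Kronecker congruence `T_ℓ = F + ℓ F⁻¹` on the special fibre
-/

set_option autoImplicit false

noncomputable section

set_option synthInstance.maxHeartbeats 400000
set_option maxHeartbeats 1000000
set_option linter.style.haveILetI false

open AlgebraicCurve ModularCurve FLTAgent.ModEq

namespace FLTAgent.Kronecker

local notation "LL" => AlgebraicClosure ℚ

theorem qExpand_ofPowerSeries {R : Type*} [CommRing R] (m : ℕ) [NeZero m] (p : PowerSeries R) :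
    qExpand R m (HahnSeries.ofPowerSeries ℤ R p) =
      HahnSeries.ofPowerSeries ℤ R (PowerSeries.expand m (NeZero.ne m) p) := by
  ext n
  by_cases hn : (m : ℤ) ∣ n
  · obtain ⟨c, rfl⟩ := hn
    rw [qExpand_coeff_mul]
    rcases lt_or_ge c 0 with hc | hc
    · rw [ofPowerSeries_coeff_of_neg _ hc, ofPowerSeries_coeff_of_neg _
        (mul_neg_of_pos_of_neg (by exact_mod_cast Nat.pos_of_ne_zero (NeZero.ne m)) hc)]
    · lift c to ℕ using hc
      rw [← Int.natCast_mul, HahnSeries.ofPowerSeries_apply_coeff,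
        HahnSeries.ofPowerSeries_apply_coeff, PowerSeries.coeff_expand_mul]
  · rw [qExpand_coeff_of_not_dvd m _ hn]
    rcases lt_or_ge n 0 with hc | hc
    · rw [ofPowerSeries_coeff_of_neg _ hc]
    · lift n to ℕ using hc
      rw [HahnSeries.ofPowerSeries_apply_coeff,
        PowerSeries.coeff_expand_of_not_dvd _ _ _ (fun h => hn (Int.natCast_dvd_natCast.2 h))]

/-- In characteristic `ℓ`, `f^ℓ` is the expansion of the coefficientwise Frobenius of `f`. -/
theorem laurent_pow_char {k : Type*} [Field k] (ℓ : ℕ) [Fact ℓ.Prime] [CharP k ℓ]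
    (f : LaurentSeries k) : f ^ ℓ = qExpand k ℓ (coeffMap (frobenius k ℓ) f) := by
  conv_lhs => rw [← LaurentSeries.single_order_mul_powerSeriesPart f]
  conv_rhs => rw [← LaurentSeries.single_order_mul_powerSeriesPart f]
  rw [map_mul (coeffMap _), map_mul (qExpand k ℓ), coeffMap_single, map_one (frobenius k ℓ),
    qExpand_single,
    coeffMap_ofPowerSeries, qExpand_ofPowerSeries, mul_pow, HahnSeries.single_pow, one_pow,
    ← map_pow, nsmul_eq_mul]
  congr 2
  rw [← PowerSeries.map_expand]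
  exact (MvPowerSeries.map_frobenius_expand ℓ (NeZero.ne ℓ)).symm

/-- Roots of unity lie in every valuation subring. -/
theorem mem_of_pow_eq_one {K : Type*} [Field K] (A : ValuationSubring K) {x : K} {n : ℕ}
    (hn : n ≠ 0) (hx : x ^ n = 1) : x ∈ A := by
  rcases A.mem_or_inv_mem x with h | h
  · exact h
  · obtain ⟨m, rfl⟩ := Nat.exists_eq_succ_of_ne_zero hn
    rw [pow_succ'] at hx
    have : x = (x⁻¹) ^ m := by
      rw [inv_pow]
      exact eq_inv_of_mul_eq_one_left hx
    rw [this]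
    exact pow_mem h m

theorem pic0_mk_nsmul {K F : Type*} [Field K] [Field F] [Algebra K F] (n : ℕ)
    (D : Divisor.degZero (K := K) (F := F)) : Pic0.mk (n • D) = n • Pic0.mk D :=
  map_nsmul (QuotientAddGroup.mk' _) n D

theorem abs_mapDomain_correspondence_le {K F F' K' G : Type*} [Field K] [IsAlgClosed K] [Field F]
    [Field F'] [Algebra K F] [Algebra K F'] [FLTAgent.Curves.IsFunctionField K F]
    [HasPrincipalDivisors K F'] [Field K'] [Field G] [Algebra K' G]
    (φ ψ : F →ₐ[K] F') (hφ : φ.toRingHom.IsIntegral) (hψ : ψ.toRingHom.IsIntegral)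
    (hFI : FundamentalIdentityAlong K φ hφ) (r : Place K F → Place K' G) (P : Place K F)
    (Q : Place K' G) :
    |Finsupp.mapDomain r (Divisor.correspondence φ ψ hφ hψ (Finsupp.single P 1)) Q| ≤
      (finrankAlong K φ : ℤ) := by
  classical
  have hnn : ∀ v, 0 ≤ Divisor.correspondence φ ψ hφ hψ (Finsupp.single P 1) v := by
    intro v
    rw [Divisor.correspondence_apply, Divisor.pullbackAlong_single, map_sum,
      Finsupp.finsetSum_apply]
    refine Finset.sum_nonneg fun W _ => ?_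
    rw [Divisor.pushforwardAlong_single, Finsupp.single_apply]
    split_ifs
    · positivity
    · exact le_rfl
  have h1 := abs_apply_le_degree
    ((Finsupp.applyAddHom Q).comp (Finsupp.mapDomain.addMonoidHom r)) 1 (fun P' => ?_) hnn
  · rw [Divisor.degree_correspondence φ ψ hφ hψ hFI, Divisor.degree_single,
      FLTAgent.Curves.deg_eq_one] at h1
    simpa using h1
  · show |Finsupp.mapDomain r (Finsupp.single P' (1 : ℤ)) Q| ≤ _
    rw [Finsupp.mapDomain_single]
    exact_mod_cast abs_single_apply_le _ _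

theorem abs_smul_add_smul_le {K F : Type*} [Field K] [Field F] [Algebra K F]
    (Φ Ψ : SemilinearAut K F) (n : ℕ) (P Q : Place K F) :
    |(Φ • Finsupp.single P (1 : ℤ) + n • (Ψ • Finsupp.single P (1 : ℤ))) Q| ≤ (1 : ℤ) + n := by
  rw [Finsupp.add_apply, SemilinearAut.smul_single, SemilinearAut.smul_single, Finsupp.smul_apply,
    nsmul_eq_mul]
  refine (abs_add_le _ _).trans ?_
  rw [abs_mul, Nat.abs_cast]
  have h1 := abs_single_apply_le (Φ • P) Q
  have h2 := mul_le_mul_of_nonneg_left (abs_single_apply_le (Ψ • P) Q) (Int.natCast_nonneg n)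
  linarith

section Norm

variable {N ℓ : ℕ} [NeZero N] [Fact ℓ.Prime]

/-- The divisor of `T_ℓ(div f)` is the divisor of the norm of `f(q^ℓ)`. -/
theorem heckeDivBar_apply_of_ord
    [HasPrincipalDivisors LL (modularFunctionFieldBar (N * ℓ))]
    (hα : HeckeAlphaBarIntegral LL N ℓ) (hβ : HeckeBetaBarIntegral LL N ℓ)
    {f : modularFunctionFieldBar N} (hf : f ≠ 0) {E : Divisor LL (modularFunctionFieldBar N)}
    (hE : ∀ P, E P = P.ord f) (v : Place LL (modularFunctionFieldBar N)) :
    heckeDivBar hα hβ E v = v.ord (normAlpha N ℓ (heckeBetaBar LL N ℓ f)) := by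
  haveI : NeZero (N * ℓ) := ⟨Nat.mul_ne_zero (NeZero.ne N) (NeZero.ne ℓ)⟩
  have hfin : FiniteAlong LL (heckeAlphaBar LL N ℓ) := finiteAlong _
  have h := normFormulaAlong (heckeAlphaBar LL N ℓ) hfin
  refine h (heckeBetaBar LL N ℓ f) ((map_ne_zero _).2 hf)
    (Divisor.pullbackAlong (heckeBetaBar LL N ℓ) hβ E) (fun w => ?_) v
  rw [Place.ord_restrictAlong (heckeBetaBar LL N ℓ) hβ w f, ← hE]
  exact Divisor.pullbackAlong_apply _ hβ E w

variable (A : ValuationSubring LL)

variable {kk : Type*} [Field kk] (π : A →+* kk)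

/-- The norm of `y(q^ℓ)` for integral `y` is integral with the expected reduction. -/
theorem exists_integral_norm (hℓN : ¬ ℓ ∣ N) [CharP kk ℓ] (φ : kk ≃+* kk)
    (hφ : ∀ z, φ z = z ^ ℓ) {y : LaurentSeries A}
    (hy : coeffMap A.subtype y ∈ modularFunctionFieldBar N) :
    ∃ g : LaurentSeries A,
      coeffMap A.subtype g = (normAlpha N ℓ (heckeBetaBar LL N ℓ ⟨_, hy⟩) : LaurentSeries LL) ∧
      coeffMap (π) g =
        coeffMap φ.toRingHom (coeffMap (π) y) *
          coeffMap φ.symm.toRingHom (coeffMap (π) y) ^ ℓ := by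
  classical
  have hℓ : ℓ.Prime := Fact.out
  haveI : NeZero (N * ℓ) := ⟨Nat.mul_ne_zero (NeZero.ne N) (NeZero.ne ℓ)⟩
  obtain ⟨ζ, hζ⟩ := exists_isPrimitiveRoot_units (K := LL) (N * ℓ)
    (Nat.cast_ne_zero.2 (NeZero.ne (N * ℓ)))
  have hζ1 : (ζ : LL) ^ (N * ℓ) = 1 := by
    rw [← Units.val_pow_eq_pow_val, hζ.pow_eq_one, Units.val_one]
  have hζA : (ζ : LL) ∈ A := mem_of_pow_eq_one A (NeZero.ne _) hζ1
  have hζA' : (⟨(ζ : LL), hζA⟩ : A) ^ (N * ℓ) = 1 := Subtype.ext hζ1
  let u : Aˣ := Units.ofPowEqOne _ _ hζA' (NeZero.ne _)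
  have hu : Units.map A.subtype.toMonoidHom u = ζ := Units.ext rfl
  set R : LaurentSeries A := qExpand A (ℓ * (N * ℓ)) y * ∏ b : Fin ℓ, substHom (u ^ ((b : ℕ) * N)) N y
    with hR
  set G : LaurentSeries LL := (normAlpha N ℓ (heckeBetaBar LL N ℓ ⟨_, hy⟩) : LaurentSeries LL)
  have hG : coeffMap A.subtype R = qExpand LL (N * ℓ) G := by
    rw [qExpand_normAlpha hℓN hζ, Fintype.prod_option, hR, map_mul, map_prod, coeffMap_qExpand]
    simp only [coeffMap_substHom, map_pow, hu]
    rfl
  have hmem : ∀ n : ℤ, G.coeff n ∈ A := fun n => by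
    have h := congrArg (fun z : LaurentSeries LL => z.coeff (((N * ℓ : ℕ) : ℤ) * n)) hG
    simp only [qExpand_coeff_mul, coeffMap_coeff] at h
    rw [← h]
    exact (R.coeff _).2
  let g : LaurentSeries A :=
    { coeff := fun n => ⟨G.coeff n, hmem n⟩
      isPWO_support' := G.isPWO_support.mono fun n hn h0 => hn (Subtype.ext h0) }
  have hg : coeffMap A.subtype g = G := by ext n; rfl
  have hgR : qExpand A (N * ℓ) g = R := by
    refine coeffMap_injective A.subtype Subtype.val_injective ?_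
    rw [coeffMap_qExpand, hg, hG]
  refine ⟨g, hg, qExpand_injective (R := kk) (N * ℓ) ?_⟩
  have hone : π ((u : A) ^ N) = 1 := by
    refine frobenius_inj kk ℓ ?_
    rw [frobenius_def, frobenius_def, ← map_pow, ← pow_mul, one_pow]
    exact (congrArg π hζA').trans (map_one π)
  have hub : ∀ b : Fin ℓ, Units.map π.toMonoidHom (u ^ ((b : ℕ) * N)) = 1 := fun b => Units.ext <| by
    show π ((u ^ ((b : ℕ) * N) : Aˣ) : A) = 1
    rw [Units.val_pow_eq_pow_val, mul_comm, pow_mul, map_pow, hone, one_pow]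
  have hfrob : frobenius kk ℓ = φ.toRingHom := RingHom.ext fun z => (hφ z).symm
  have hinv : coeffMap φ.symm.toRingHom (coeffMap π y) ^ ℓ = qExpand kk ℓ (coeffMap π y) := by
    rw [laurent_pow_char ℓ, hfrob, coeffMap_coeffMap φ.toRingHom]
    refine congrArg _ ?_
    ext n
    simp
  rw [← coeffMap_qExpand, hgR, hR, map_mul, map_prod, coeffMap_qExpand, map_mul, hinv]
  simp only [coeffMap_substHom, hub, substHom_one, Finset.prod_const, Finset.card_univ,
    Fintype.card_fin]
  rw [← map_pow, laurent_pow_char ℓ, hfrob, qExpand_qExpand, qExpand_qExpand, mul_comm]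
  congr 1
  exact qExpand_congr (mul_comm _ _) _

variable {A π}

/-- The congruence on the divisor of an integral function. -/
theorem mapDomain_heckeDivBar_integral (hℓN : ¬ ℓ ∣ N) [CharP kk ℓ]
    [HasPrincipalDivisors LL (modularFunctionFieldBar (N * ℓ))]
    (hα : HeckeAlphaBarIntegral LL N ℓ) (hβ : HeckeBetaBarIntegral LL N ℓ)
    {r : Place LL (modularFunctionFieldBar N) → Place kk (modularFunctionFieldFullC kk N)}
    (hr : IsPlaceReductionAlong A π N r) (φ : kk ≃+* kk) (hφ : ∀ z, φ z = z ^ ℓ)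
    {E : Divisor LL (modularFunctionFieldBar N)}
    (hE : E ∈ integralPrincipalDivisors A (π) N) :
    Finsupp.mapDomain r (heckeDivBar hα hβ E) =
      specialAut N φ • Finsupp.mapDomain r E + ℓ • (specialAut N φ.symm • Finsupp.mapDomain r E) := by
  set Φ := specialAut N φ
  set Ψ := specialAut N φ.symm
  obtain ⟨y, hy, hyk, hne, hEy⟩ := hE
  have hf0 : (⟨_, hy⟩ : modularFunctionFieldBar N) ≠ 0 := fun h0 => hne <| by
    have h1 : coeffMap A.subtype y = 0 := congrArg Subtype.val h0
    rw [coeffMap_injective A.subtype Subtype.val_injective (h1.trans (map_zero _).symm),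
      map_zero]
  obtain ⟨g, hg, hgk⟩ := exists_integral_norm A π hℓN φ hφ hy
  have hgy : coeffMap A.subtype g ∈ modularFunctionFieldBar N := hg ▸ SetLike.coe_mem _
  set yb : modularFunctionFieldFullC kk N := ⟨_, hyk⟩ with hyb
  have hgk' : coeffMap (π) g = ((Φ • yb) * (Ψ • yb) ^ ℓ :
      modularFunctionFieldFullC kk N) := hgk
  have hgkm : coeffMap (π) g ∈ modularFunctionFieldFullC kk N :=
    hgk' ▸ SetLike.coe_mem _
  have hyb0 : yb ≠ 0 := fun h0 => hne (congrArg Subtype.val h0)
  have h1 : Φ • yb ≠ 0 := (smul_ne_zero_iff_ne _).2 hyb0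
  have h2 : Ψ • yb ≠ 0 := (smul_ne_zero_iff_ne _).2 hyb0
  have hgne : coeffMap (π) g ≠ 0 := by
    rw [hgk']
    exact fun h0 => mul_ne_zero h1 (pow_ne_zero _ h2) (Subtype.ext h0)
  refine Finsupp.ext fun Q => ?_
  rw [Finsupp.add_apply]
  show Finsupp.mapDomain r (heckeDivBar hα hβ E) Q = _
  rw [hr.2 g hgy hgkm hgne (heckeDivBar hα hβ E) (fun P => ?_), Finsupp.smul_apply,
    SemilinearAut.divisor_smul_apply, SemilinearAut.divisor_smul_apply,
    hr.2 y hy hyk hne E hEy, hr.2 y hy hyk hne E hEy,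
    show (⟨_, hgkm⟩ : modularFunctionFieldFullC kk N) = (Φ • yb) * (Ψ • yb) ^ ℓ from
      Subtype.ext hgk', Place.ord_mul _ h1 (pow_ne_zero _ h2), ← zpow_natCast,
    Place.ord_zpow, nsmul_eq_mul, ← hyb]
  · congr 1
    · conv_lhs => rw [← smul_inv_smul Φ Q]
      exact SemilinearAut.ord_smul _ _ _
    · congr 1
      conv_lhs => rw [← smul_inv_smul Ψ Q]
      exact SemilinearAut.ord_smul _ _ _
  · rw [heckeDivBar_apply_of_ord hα hβ hf0 hEy]
    exact congrArg _ (Subtype.ext hg.symm)

/-- The Kronecker congruence on classes. -/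
theorem reductionAlong_hecke (hℓN : ¬ ℓ ∣ N) [CharP kk ℓ] (h : ReductionInputsAlong A π N)
    (φ : kk ≃+* kk) (hφ : ∀ z, φ z = z ^ ℓ) (x : JZero N) :
    reductionAlong A π N (heckeOperatorAlong LL N ℓ x) =
      specialAut N φ • reductionAlong A π N x +
        ℓ • (specialAut N φ.symm • reductionAlong A π N x) := by
  haveI : NeZero (N * ℓ) := ⟨Nat.mul_ne_zero (NeZero.ne N) (NeZero.ne ℓ)⟩
  haveI : HasPrincipalDivisors LL (modularFunctionFieldBar (N * ℓ)) :=
    FLTAgent.Curves.hasPrincipalDivisors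
  have hα : HeckeAlphaBarIntegral LL N ℓ := isIntegralAlong _
  have hβ : HeckeBetaBarIntegral LL N ℓ := isIntegralAlong _
  obtain ⟨D, rfl⟩ := Pic0.mk_surjective x
  obtain ⟨hT, hTeq⟩ := heckeOperatorAlong_mk N ℓ hα hβ D
  rw [hTeq, reductionAlong_mk h, reductionAlong_mk h, SemilinearAut.pic0_smul_mk,
    SemilinearAut.pic0_smul_mk]
  rw [← pic0_mk_nsmul, ← Pic0.mk_add]
  refine congrArg Pic0.mk (Subtype.ext ?_)
  simp only [coe_reductionDegZeroAlong, SemilinearAut.coe_degZeroSMulHom, AddSubgroup.coe_add,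
    AddSubgroupClass.coe_nsmul]
  set r := h.choose
  have hr := h.choose_spec.1
  set Φ := specialAut N φ
  set Ψ := specialAut N φ.symm
  let rr : Divisor LL (modularFunctionFieldBar N) →+ Divisor kk (modularFunctionFieldFullC kk N) :=
    Finsupp.mapDomain.addMonoidHom r
  let δ₁ : Divisor LL (modularFunctionFieldBar N) →+ Divisor kk (modularFunctionFieldFullC kk N) :=
    rr.comp (heckeDivBar hα hβ)
  let δ₂ : Divisor LL (modularFunctionFieldBar N) →+ Divisor kk (modularFunctionFieldFullC kk N) :=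
    (DistribSMul.toAddMonoidHom _ Φ).comp rr + ℓ • (DistribSMul.toAddMonoidHom _ Ψ).comp rr
  have hδ₂ : ∀ E, δ₂ E = Φ • Finsupp.mapDomain r E + ℓ • (Ψ • Finsupp.mapDomain r E) := fun E => by
    simp only [δ₂, rr, AddMonoidHom.add_apply, AddMonoidHom.nsmul_apply, AddMonoidHom.coe_comp,
      Function.comp_apply, DistribSMul.toAddMonoidHom_apply, Finsupp.mapDomain.addMonoidHom_apply]
  refine Eq.trans ?_ (hδ₂ D)
  show δ₁ D = δ₂ D
  set B : ℕ := finrankAlong LL (heckeBetaBar LL N ℓ) + ℓ + 1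
  refine eq_of_principal_of_bounded δ₁ δ₂ B (fun P Q => ?_) (fun P Q => ?_) (fun E hE => ?_)
    (Divisor.mem_degZero.mp D.2)
  · refine le_trans (abs_mapDomain_correspondence_le (heckeBetaBar LL N ℓ) (heckeAlphaBar LL N ℓ)
      hβ hα (fundamentalIdentityAlong _ _) r P Q) ?_
    simp only [B]
    push_cast
    linarith [(Int.natCast_nonneg ℓ : (0:ℤ) ≤ ℓ)]
  · rw [hδ₂, Finsupp.mapDomain_single]
    refine (abs_smul_add_smul_le Φ Ψ ℓ (r P) Q).trans ?_
    simp only [B]
    push_cast
    linarith [(Int.natCast_nonneg _ : (0:ℤ) ≤ finrankAlong LL (heckeBetaBar LL N ℓ))]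
  · have hgen : PrincipalGeneratedByIntegral A (π) N := h.choose_spec.2
    have hE' := hgen hE
    clear hE
    induction hE' using AddSubgroup.closure_induction with
    | zero => rw [map_zero, map_zero]
    | add E E' _ _ hE hE' => rw [map_add, map_add, hE, hE']
    | neg E _ hE => rw [map_neg, map_neg, hE]
    | mem E hE => rw [hδ₂]; exact mapDomain_heckeDivBar_integral hℓN hα hβ hr φ hφ hE

/-- The Kronecker congruence for the reduction modulo `ℓ`. -/
theorem reductionModL_hecke {A : ValuationSubring LL} (hℓN : ¬ ℓ ∣ N)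
    [CharP (IsLocalRing.ResidueField A) ℓ] (h : ReductionInputsModL A N)
    (φ : IsLocalRing.ResidueField A ≃+* IsLocalRing.ResidueField A) (hφ : ∀ z, φ z = z ^ ℓ)
    (x : JZero N) :
    reductionModL A N (heckeOperatorAlong LL N ℓ x) =
      specialAut N φ • reductionModL A N x +
        ℓ • (specialAut N φ.symm • reductionModL A N x) :=
  reductionAlong_hecke hℓN h φ hφ x

end Norm

end FLTAgent.Kronecker
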