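import Fermat.Agent.Curves.Hurwitz
import Fermat.Prelude.Def_AlgebraicCurve_Correspondence

/-!
# Finite maps of curves over an algebraically closed field

Finiteness, the fundamental identity `∑ e = [F' : F]` and the norm formula for the pushforward
of principal divisors, for an embedding of function fields.
-/

set_option autoImplicit false

noncomputable section

namespace FLTAgent.Kronecker

open AlgebraicCurve FLTAgent.Curves IntermediateField

variable {K F F' : Type*} [Field K] [Field F] [Field F'] [Algebra K F] [Algebra K F']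
  [Algebra F F'] [IsScalarTower K F F'] [IsAlgClosed K] [IsFunctionField K F]
  [IsFunctionField K F']

omit [IsAlgClosed K] [IsFunctionField K F] [IsFunctionField K F'] in
/-- Degrees over a coordinate multiply in towers. -/
theorem finrank_adjoin_algebraMap (x : F) :
    Module.finrank K⟮algebraMap F F' x⟯ F' = Module.finrank K⟮x⟯ F * Module.finrank F F' := by
  let φ := IsScalarTower.toAlgHom K F F'
  let e : K⟮x⟯ ≃+* K⟮algebraMap F F' x⟯ :=
    ((K⟮x⟯).equivMap φ).toRingEquiv.trans
      (IntermediateField.equivOfEq (show (K⟮x⟯).map φ = K⟮algebraMap F F' x⟯ by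
        rw [IntermediateField.adjoin_map, Set.image_singleton]; rfl)).toRingEquiv
  have hcomm : (algebraMap K⟮algebraMap F F' x⟯ F').comp e.toRingHom =
      (RingEquiv.refl F').toRingHom.comp (algebraMap K⟮x⟯ F') :=
    RingHom.ext fun c => (IsScalarTower.algebraMap_apply K⟮x⟯ F F' c).symm
  rw [← Algebra.finrank_eq_of_equiv_equiv e (RingEquiv.refl F') hcomm,
    ← Module.finrank_mul_finrank K⟮x⟯ F F']

theorem moduleFinite_of_functionField (K : Type*) {F F' : Type*} [Field K] [Field F] [Field F']
    [Algebra K F] [Algebra K F'] [Algebra F F'] [IsScalarTower K F F'] [IsFunctionField K F]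
    [IsFunctionField K F'] : Module.Finite F F' := by
  obtain ⟨x, hx, -⟩ := IsFunctionField.exists_transcendental (K := K) (F := F)
  have hx' : Transcendental K (algebraMap F F' x) :=
    (transcendental_algebraMap_iff (algebraMap F F').injective).2 hx
  haveI := finiteDimensional_adjoin (K := K) hx'
  have hpos : 0 < Module.finrank K⟮algebraMap F F' x⟯ F' := Module.finrank_pos
  rw [finrank_adjoin_algebraMap] at hpos
  exact FiniteDimensional.of_finrank_pos (Nat.pos_of_mul_pos_left hpos)

/-- Some function has its only pole at a given point. -/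
theorem exists_single_pole (v : Place K F) :
    ∃ s : F, v.ord s < 0 ∧ ∀ u, u ≠ v → 0 ≤ u.ord s := by
  obtain ⟨x, hx, -⟩ := IsFunctionField.exists_transcendental (K := K) (F := F)
  obtain ⟨B⟩ := nonempty_reducedBasis (K := K) hx
  set D : Divisor K F := Finsupp.single v (((∑ i, B.k i) + 2 : ℕ) : ℤ) with hD
  have h := riemann_le B hx D
  have hdeg : Divisor.degree D = ((∑ i, B.k i : ℕ) : ℤ) + 2 := by
    rw [hD, Divisor.degree_single, deg_eq_one]; push_cast; ring
  have hk : ((∑ i, B.k i : ℕ) : ℤ) = ∑ i, (B.k i : ℤ) := by push_cast; rfl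
  rw [hdeg, hk] at h
  have h2 : 2 ≤ Module.finrank K (riemannRochSpace D) := by omega
  obtain ⟨⟨s, hs⟩, hs'⟩ : ∃ f : riemannRochSpace D, ∀ c : K, (f : F) ≠ algebraMap K F c := by
    by_contra! hcon
    choose c hc using hcon
    let g : riemannRochSpace D →ₗ[K] K :=
      { toFun := c
        map_add' := fun a b => (algebraMap K F).injective (by
          rw [map_add, ← hc, ← hc, ← hc]; rfl)
        map_smul' := fun r a => (algebraMap K F).injective (by
          rw [RingHom.id_apply, smul_eq_mul, map_mul, ← hc, ← hc, ← Algebra.smul_def]; rfl) }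
    have hginj : Function.Injective g := fun a b hab =>
      Subtype.ext ((hc a).trans ((congrArg (algebraMap K F) hab).trans (hc b).symm))
    have h3 := LinearMap.finrank_le_finrank_of_injective hginj
    rw [Module.finrank_self] at h3
    omega
  have hs0 : s ≠ 0 := fun h0 => hs' 0 (by simp [h0])
  have hnn : ∀ u, u ≠ v → 0 ≤ u.ord s := by
    intro u hu
    have h1 := ((mem_riemannRochSpace_iff.1 hs) u).resolve_left hs0
    rwa [hD, Finsupp.single_eq_of_ne hu, neg_zero] at h1
  refine ⟨s, ?_, hnn⟩
  by_contra hv
  obtain ⟨c, hc⟩ := eq_algebraMap_of_forall_ord_nonneg (K := K) (f := s) fun u => by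
    rcases eq_or_ne u v with rfl | hu
    · omega
    · exact hnn u hu
  exact hs' c hc

variable [Algebra.IsIntegral F F'] [HasPrincipalDivisors K F']

theorem sum_ramificationIndex_fiber (v : Place K F) :
    ∑ w ∈ v.fiber F', (w.ramificationIndex F : ℤ) = Module.finrank F F' := by
  obtain ⟨s, hsv, hs⟩ := exists_single_pole (K := K) v
  have hst : Transcendental K s := transcendental_of_ord_ne_zero hsv.ne
  have hst' : Transcendental K (algebraMap F F' s) :=
    (transcendental_algebraMap_iff (algebraMap F F').injective).2 hst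
  have h1 : poleDiv K s = Finsupp.single v (-v.ord s) := by
    refine Finsupp.ext fun u => ?_
    rw [poleDiv_apply]
    rcases eq_or_ne u v with rfl | hu
    · rw [Finsupp.single_eq_same]; omega
    · rw [Finsupp.single_eq_of_ne hu]; have := hs u hu; omega
  have h2 : poleDiv K (algebraMap F F' s) = Divisor.pullback F' (poleDiv K s) := by
    refine Finsupp.ext fun w => ?_
    rw [poleDiv_apply, Divisor.pullback_apply, poleDiv_apply, w.ord_restrict, ← mul_neg]
    rcases le_total 0 (-(w.restrict F).ord s) with h | h
    · rw [max_eq_left h, max_eq_left]; positivity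
    · rw [max_eq_right h, max_eq_right, mul_zero]
      exact mul_nonpos_of_nonneg_of_nonpos (Int.natCast_nonneg _) h
  have h3 := degree_poleDiv (K := K) hst'
  rw [h2, h1, Divisor.pullback_single, map_sum, finrank_adjoin_algebraMap] at h3
  have h4 := degree_poleDiv (K := K) hst
  rw [h1, Divisor.degree_single, deg_eq_one] at h4
  simp only [Divisor.degree_single, deg_eq_one, Nat.cast_one, mul_one] at h3 h4
  rw [← Finset.mul_sum, Nat.cast_mul, ← h4] at h3
  exact mul_left_cancel₀ (by omega) h3

theorem fundamentalIdentity : FundamentalIdentity K F F' := by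
  refine ⟨fun v => ?_⟩
  simp only [deg_eq_one, Nat.cast_one, mul_one]
  exact sum_ramificationIndex_fiber v

variable [Module.Finite F F']

omit [HasPrincipalDivisors K F'] [IsFunctionField K F] [Module.Finite F F'] in
/-- Functions without poles over `v` are integral over the valuation ring of `v`. -/
theorem isIntegral_of_forall_fiber (v : Place K F) {x : F'}
    (hx : ∀ w : Place K F', w.restrict F = v → x ∈ w.toValuationSubring) :
    IsIntegral v.toValuationSubring x := by
  by_contra hcon
  set R : Subring F' := (integralClosure v.toValuationSubring F').toSubring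
  haveI : IsIntegrallyClosedIn R F' := by
    rw [Subring.isIntegrallyClosedIn_iff]
    intro y hy
    haveI : Algebra.IsIntegral v.toValuationSubring (integralClosure v.toValuationSubring F') :=
      inferInstance
    exact isIntegral_trans (A := integralClosure v.toValuationSubring F') y hy
  obtain ⟨V, hRV, hxV⟩ := Subring.exists_le_valuationSubring_of_isIntegrallyClosedIn (R := R) hcon
  have hV : ∀ f : F, f ∈ v.toValuationSubring → algebraMap F F' f ∈ V := fun f hf =>
    hRV (show algebraMap v.toValuationSubring F' ⟨f, hf⟩ ∈ _ from isIntegral_algebraMap)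
  have hVtop : V ≠ ⊤ := fun h => hxV (h ▸ ValuationSubring.mem_top x)
  have hK : ∀ a : K, algebraMap K F' a ∈ V := fun a => by
    rw [IsScalarTower.algebraMap_apply K F F']
    exact hV _ (v.algebraMap_mem' a)
  refine hxV (hx (placeOfValuationSubring V hK hVtop) (place_eq_of_le ?_).symm)
  intro f hf
  exact hV f hf

omit [HasPrincipalDivisors K F'] [IsFunctionField K F] in
theorem norm_mem (v : Place K F) {x : F'}
    (hx : ∀ w : Place K F', w.restrict F = v → x ∈ w.toValuationSubring) :
    Algebra.norm F x ∈ v.toValuationSubring := by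
  obtain ⟨y, hy⟩ := IsIntegrallyClosed.isIntegral_iff.mp
    (Algebra.isIntegral_norm F (isIntegral_of_forall_fiber v hx))
  exact hy ▸ y.2

theorem norm_inv' (x : F') : Algebra.norm F x⁻¹ = (Algebra.norm F x)⁻¹ := by
  rcases eq_or_ne x 0 with rfl | hx
  · simp
  · refine eq_inv_of_mul_eq_one_left ?_
    rw [← map_mul, inv_mul_cancel₀ hx, map_one]

theorem norm_zpow' (x : F') (n : ℤ) : Algebra.norm F (x ^ n) = Algebra.norm F x ^ n := by
  obtain ⟨m, rfl | rfl⟩ := n.eq_nat_or_neg <;> simp [map_pow, norm_inv']

omit [HasPrincipalDivisors K F'] [IsFunctionField K F] in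
theorem ord_norm_eq_zero (v : Place K F) {x : F'} (hx0 : x ≠ 0)
    (hx : ∀ w : Place K F', w.restrict F = v → w.ord x = 0) :
    v.ord (Algebra.norm F x) = 0 := by
  have h1 := norm_mem v (x := x) fun w hw => (mem_iff_ord_nonneg hx0).2 (hx w hw).ge
  have h2 := norm_mem v (x := x⁻¹) fun w hw =>
    (mem_iff_ord_nonneg (inv_ne_zero hx0)).2 (by rw [w.ord_inv, hx w hw, neg_zero])
  have hn : Algebra.norm F x ≠ 0 := Algebra.norm_ne_zero_iff.2 hx0
  rw [norm_inv', mem_iff_ord_nonneg (inv_ne_zero hn), v.ord_inv] at h2
  rw [mem_iff_ord_nonneg hn] at h1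
  omega

theorem ord_norm (v : Place K F) {f : F'} (hf : f ≠ 0) :
    v.ord (Algebra.norm F f) = ∑ w ∈ v.fiber F', w.ord f := by
  classical
  set S := v.fiber F'
  have happrox : ∀ w : Place K F', ∃ π : F', π ≠ 0 ∧ w.ord π = 1 ∧
      ∀ u ∈ S.erase w, u.ord π = 0 := by
    intro w
    obtain ⟨p, hp0, hp⟩ := exists_uniformizer w
    set M : ℕ := 2 + S.sum fun u => (u.ord p).natAbs with hM
    obtain ⟨η, hη1, -, hηu⟩ := exists_approx_one w (S.erase w) (Finset.notMem_erase w S) M
    -- `π = p η + (1 - η)`
    refine ⟨p * η + (1 - η), ?_⟩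
    have hw : w.ord (p * η + (1 - η)) = 1 ∧ p * η + (1 - η) ≠ 0 := by
      have h3 : OrdGE w 2 ((1 - p) * (1 - η)) := by
        have ha : OrdGE w 0 (1 - p) :=
          (ordGE_one w).sub ((ordGE_of_le (c := 0) (by omega)))
        have hb : OrdGE w (M : ℤ) (1 - η) := by simpa using hη1.neg
        exact (ha.mul hb).mono (by omega)
      have h4 : p * η + (1 - η) = p + (1 - p) * (1 - η) := by ring
      rw [h4]
      have h5 : w.ord (p + (1 - p) * (1 - η)) = 1 := by
        rw [(ord_add_eq_left (v := w) hp0 (h3.imp_right fun h => by omega)).1, hp]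
      refine ⟨h5, fun h0 => ?_⟩
      rw [h0, w.ord_zero] at h5
      omega
    refine ⟨hw.2, hw.1, fun u hu => ?_⟩
    have h6 : OrdGE u 1 ((p - 1) * η) := by
      have hb : (u.ord p).natAbs ≤ S.sum fun u => (u.ord p).natAbs :=
        Finset.single_le_sum (f := fun u => (u.ord p).natAbs) (fun _ _ => Nat.zero_le _)
          (Finset.mem_of_mem_erase hu)
      have ha : OrdGE u (-((u.ord p).natAbs : ℤ)) (p - 1) :=
        ((ordGE_of_le (f := p) (by omega))).sub ((ordGE_one u).mono (by omega))
      exact (ha.mul (hηu u hu)).mono (by omega)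
    rw [show p * η + (1 - η) = 1 + (p - 1) * η by ring,
      (ord_add_eq_left (v := u) one_ne_zero (h6.imp_right fun h => by rw [u.ord_one]; omega)).1,
      u.ord_one]
  choose π hπ0 hπ1 hπu using happrox
  -- any function differs from a product of the `π w` by a unit over `v`
  have hdec : ∀ g : F', g ≠ 0 →
      v.ord (Algebra.norm F g) = ∑ w ∈ S, w.ord g * v.ord (Algebra.norm F (π w)) := by
    intro g hg
    set P : F' := ∏ w ∈ S, π w ^ w.ord g with hP
    have hP0 : P ≠ 0 := Finset.prod_ne_zero_iff.2 fun w _ => zpow_ne_zero _ (hπ0 w)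
    have hord : ∀ (u : Place K F') (T : Finset (Place K F')),
        u.ord (∏ w ∈ T, π w ^ w.ord g) = ∑ w ∈ T, w.ord g * u.ord (π w) := by
      intro u T
      induction T using Finset.induction_on with
      | empty => simp
      | insert a T ha ih =>
        rw [Finset.prod_insert ha, Finset.sum_insert ha, u.ord_mul (zpow_ne_zero _ (hπ0 a))
          (Finset.prod_ne_zero_iff.2 fun w _ => zpow_ne_zero _ (hπ0 w)), u.ord_zpow, ih]
    have hunit : ∀ u : Place K F', u.restrict F = v → u.ord (g / P) = 0 := by
      intro u hu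
      have huS : u ∈ S := Place.mem_fiber.2 hu
      rw [div_eq_mul_inv, u.ord_mul hg (inv_ne_zero hP0), u.ord_inv, hP, hord,
        Finset.sum_eq_single_of_mem u huS fun w _ hwu => by
          rw [hπu w u (Finset.mem_erase.2 ⟨Ne.symm hwu, huS⟩), mul_zero], hπ1, mul_one,
        add_neg_cancel]
    have hz := ord_norm_eq_zero v (div_ne_zero hg hP0) hunit
    have hnd : Algebra.norm F g = Algebra.norm F (g / P) * Algebra.norm F P := by
      rw [← map_mul, div_mul_cancel₀ g hP0]
    rw [hnd, v.ord_mul (Algebra.norm_ne_zero_iff.2 (div_ne_zero hg hP0))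
      (Algebra.norm_ne_zero_iff.2 hP0), hz, zero_add, hP, map_prod]
    have hord' : ∀ T : Finset (Place K F'),
        v.ord (∏ w ∈ T, Algebra.norm F (π w ^ w.ord g)) =
          ∑ w ∈ T, w.ord g * v.ord (Algebra.norm F (π w)) := by
      intro T
      induction T using Finset.induction_on with
      | empty => simp
      | insert a T ha ih =>
        rw [Finset.prod_insert ha, Finset.sum_insert ha,
          v.ord_mul (Algebra.norm_ne_zero_iff.2 (zpow_ne_zero _ (hπ0 a)))
            (Finset.prod_ne_zero_iff.2 fun w _ =>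
              Algebra.norm_ne_zero_iff.2 (zpow_ne_zero _ (hπ0 w))), norm_zpow', v.ord_zpow, ih]
    exact hord' S
  -- every coefficient is at least one
  have hge : ∀ w ∈ S, 1 ≤ v.ord (Algebra.norm F (π w)) := by
    intro w hw
    have hn0 : Algebra.norm F (π w) ≠ 0 := Algebra.norm_ne_zero_iff.2 (hπ0 w)
    have hmem : ∀ u : Place K F', u.restrict F = v → π w ∈ u.toValuationSubring := by
      intro u hu
      rw [mem_iff_ord_nonneg (hπ0 w)]
      rcases eq_or_ne u w with rfl | huw
      · rw [hπ1]; omega
      · rw [hπu w u (Finset.mem_erase.2 ⟨huw, Place.mem_fiber.2 hu⟩)]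
    have hnn := (mem_iff_ord_nonneg hn0).1 (norm_mem v hmem)
    by_contra hlt
    have hwv : w.restrict F = v := Place.mem_fiber.1 hw
    have hint := isIntegral_of_forall_fiber v hmem
    have hπF : IsIntegral F (π w) := Algebra.IsIntegral.isIntegral _
    set p := minpoly v.toValuationSubring (π w) with hpdef
    have hp : minpoly F (π w) = p.map (algebraMap v.toValuationSubring F) :=
      minpoly.isIntegrallyClosed_eq_field_fractions' F hint
    set c : F := algebraMap v.toValuationSubring F (p.coeff 0) with hc
    have hN : ∃ k : ℕ, 0 < k ∧ ∃ d : ℕ, Algebra.norm F (π w) = ((-1) ^ d * c) ^ k := by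
      refine ⟨Module.finrank F⟮π w⟯ F', Module.finrank_pos,
        (IntermediateField.adjoin.powerBasis hπF).dim, ?_⟩
      rw [Algebra.norm_eq_norm_adjoin F (π w), ← IntermediateField.adjoin.powerBasis_gen hπF,
        Algebra.PowerBasis.norm_gen_eq_coeff_zero_minpoly,
        IntermediateField.adjoin.powerBasis_gen, IntermediateField.minpoly_gen, hp,
        Polynomial.coeff_map]
    obtain ⟨k, hk, d, hkd⟩ := hN
    have hc0 : c ≠ 0 := fun h => hn0 (by rw [hkd, h, mul_zero, zero_pow hk.ne'])
    have hsign : v.ord ((-1 : F) ^ d) = 0 := by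
      rw [ord_pow, ord_neg, v.ord_one, mul_zero]
    have hcord : v.ord c = 0 := by
      have hzero : v.ord (Algebra.norm F (π w)) = 0 := by omega
      rw [hkd, ord_pow, v.ord_mul (pow_ne_zero _ (neg_ne_zero.2 one_ne_zero)) hc0, hsign,
        zero_add] at hzero
      exact (mul_eq_zero.1 hzero).resolve_left (by omega)
    have hq : Polynomial.aeval (π w) p.divX ∈ w.toValuationSubring := by
      rw [Polynomial.aeval_eq_sum_range]
      refine sum_mem fun i _ => ?_
      rw [Algebra.smul_def]
      refine mul_mem ?_ (pow_mem (hmem w hwv) _)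
      have hi : ((p.divX.coeff i : v.toValuationSubring) : F) ∈
          (w.restrict F).toValuationSubring := by rw [hwv]; exact SetLike.coe_mem _
      exact hi
    have h0 := minpoly.aeval v.toValuationSubring (π w)
    rw [← hpdef, ← Polynomial.divX_mul_X_add p, map_add, map_mul, Polynomial.aeval_X,
      Polynomial.aeval_C, add_eq_zero_iff_eq_neg,
      IsScalarTower.algebraMap_apply v.toValuationSubring F F', ← hc] at h0
    have hcw : w.ord (-algebraMap F F' c) = 0 := by
      rw [ord_neg, w.ord_restrict, hwv, hcord, mul_zero]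
    have hq0 : Polynomial.aeval (π w) p.divX ≠ 0 := by
      intro hz
      rw [hz, zero_mul] at h0
      exact neg_ne_zero.2 ((map_ne_zero_iff _ (algebraMap F F').injective).2 hc0) h0.symm
    rw [← h0, w.ord_mul hq0 (hπ0 w), hπ1] at hcw
    have := (mem_iff_ord_nonneg hq0).1 hq
    omega
  have h1 : ∑ w ∈ S, (w.ramificationIndex F : ℤ) * v.ord (Algebra.norm F (π w)) =
      ∑ w ∈ S, (w.ramificationIndex F : ℤ) := by
    obtain ⟨t, ht0, ht1⟩ := exists_uniformizer v
    have h := hdec (algebraMap F F' t) (by simpa using ht0)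
    rw [Algebra.norm_algebraMap, show v.ord (t ^ Module.finrank F F') = Module.finrank F F' by
      rw [ord_pow, ht1, mul_one], ← sum_ramificationIndex_fiber (K := K) v] at h
    rw [h]
    refine Finset.sum_congr rfl fun w hw => ?_
    rw [w.ord_restrict, Place.mem_fiber.1 hw, ht1, mul_one]
  have h2 : ∀ w ∈ S, v.ord (Algebra.norm F (π w)) = 1 := by
    intro w hw
    have h3 := (Finset.sum_eq_sum_iff_of_le fun u hu =>
      le_mul_of_one_le_right (Int.natCast_nonneg _) (hge u hu)).1 h1.symm w hw
    have h4 : (0 : ℤ) < w.ramificationIndex F := by exact_mod_cast w.ramificationIndex_pos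
    nlinarith
  rw [hdec f hf]
  exact Finset.sum_congr rfl fun w hw => by rw [h2 w hw, mul_one]

end FLTAgent.Kronecker
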