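import Fermat.Agent.Curves.Hurwitz

/-!
# Maps on divisors killing principal divisors with bounded values on points

An additive map on divisors which kills principal divisors and is bounded on points kills every
divisor of degree zero: a multiple of such a divisor plus a fixed divisor is equivalent to an
effective divisor of fixed degree.
-/

set_option autoImplicit false

noncomputable section

namespace FLTAgent.Kronecker

open AlgebraicCurve FLTAgent.Curves

variable {K F : Type*} [Field K] [Field F] [Algebra K F] [IsAlgClosed K] [IsFunctionField K F]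

theorem abs_apply_le_degree (δ : Divisor K F →+ ℤ) (B : ℕ)
    (hB : ∀ P, |δ (Finsupp.single P 1)| ≤ B) {E : Divisor K F} (hE : ∀ v, 0 ≤ E v) :
    |δ E| ≤ B * Divisor.degree E := by
  rw [degree_eq_sum (Finset.Subset.refl E.support), Finset.mul_sum]
  conv_lhs => rw [← E.sum_single]
  rw [Finsupp.sum, map_sum]
  refine (Finset.abs_sum_le_sum_abs _ _).trans (Finset.sum_le_sum fun v _ => ?_)
  rw [show Finsupp.single v (E v) = E v • Finsupp.single v (1 : ℤ) by
    rw [Finsupp.smul_single_one], map_zsmul, smul_eq_mul, abs_mul, abs_of_nonneg (hE v)]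
  rw [mul_comm (B : ℤ)]
  exact mul_le_mul_of_nonneg_left (hB v) (hE v)

/-- A bounded additive map killing principal divisors kills divisors of degree zero. -/
theorem eq_zero_of_principal_of_bounded (δ : Divisor K F →+ ℤ) (B : ℕ)
    (hB : ∀ P, |δ (Finsupp.single P 1)| ≤ B)
    (hprin : ∀ D ∈ Divisor.principal (K := K) (F := F), δ D = 0) {D : Divisor K F}
    (hD : Divisor.degree D = 0) : δ D = 0 := by
  obtain ⟨x, hx, -⟩ := IsFunctionField.exists_transcendental (K := K) (F := F)
  obtain ⟨Bs⟩ := nonempty_reducedBasis (K := K) hx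
  obtain ⟨O, -⟩ := exists_ord_pos (K := K) hx
  set G : ℕ := ∑ i, Bs.k i with hG
  have hn : ∀ n : ℕ, |(n : ℤ) * δ D| ≤ (B : ℤ) * G + |(G : ℤ) * δ (Finsupp.single O 1)| := by
    intro n
    set D' : Divisor K F := n • D + G • Finsupp.single O 1 with hD'
    have hdeg : Divisor.degree D' = G := by
      rw [hD', map_add, map_nsmul, map_nsmul, hD, Divisor.degree_single, deg_eq_one]
      simp
    have hpos : 0 < Module.finrank K (riemannRochSpace D') := by
      have h := riemann_le Bs hx D'
      rw [hdeg] at h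
      have h1 : 0 < Module.finrank (IntermediateField.adjoin K ({x} : Set F)) F := by
        have := finiteDimensional_adjoin (K := K) hx
        exact Module.finrank_pos
      have h2 : ((∑ i, Bs.k i : ℕ) : ℤ) = ∑ i, (Bs.k i : ℤ) := by push_cast; rfl
      rw [hG, h2] at h
      omega
    have := finiteDimensional_rrSpace D'
    obtain ⟨⟨f, hf⟩, hf0⟩ := Module.finrank_pos_iff_exists_ne_zero.1 hpos
    have hf0' : f ≠ 0 := fun h => hf0 (Subtype.ext h)
    set E : Divisor K F := D' + divOf K f with hE
    have hEpos : ∀ v, 0 ≤ E v := by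
      intro v
      rw [hE, Finsupp.add_apply, divOf_apply]
      have := ((mem_riemannRochSpace_iff.1 hf) v).resolve_left hf0'
      omega
    have hEdeg : Divisor.degree E = G := by
      rw [hE, map_add, degree_divOf, hdeg, add_zero]
    have hval : δ E = (n : ℤ) * δ D + (G : ℤ) * δ (Finsupp.single O 1) := by
      rw [hE, hD', map_add, hprin (divOf K f) ⟨f, hf0', divOf_apply f⟩, add_zero, map_add,
        map_nsmul, map_nsmul, nsmul_eq_mul, nsmul_eq_mul]
    have h1 := abs_apply_le_degree δ B hB hEpos
    rw [hEdeg] at h1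
    calc |(n : ℤ) * δ D| = |δ E - (G : ℤ) * δ (Finsupp.single O 1)| := by
            rw [hval, add_sub_cancel_right]
      _ ≤ |δ E| + |(G : ℤ) * δ (Finsupp.single O 1)| := abs_sub _ _
      _ ≤ _ := by linarith
  by_contra hne
  set C : ℤ := (B : ℤ) * G + |(G : ℤ) * δ (Finsupp.single O 1)|
  have h1 := hn (C.natAbs + 1)
  rw [abs_mul, Nat.abs_cast] at h1
  have h2 : (1 : ℤ) ≤ |δ D| := Int.one_le_abs hne
  push_cast at h1
  have h3 : C ≤ (C.natAbs : ℤ) := Int.le_natAbs
  nlinarith [abs_nonneg C, Int.natCast_natAbs C]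

variable {K' F' : Type*} [Field K'] [Field F'] [Algebra K' F']

/-- Two maps of divisor groups agreeing on principal divisors and bounded on points agree on
divisors of degree zero. -/
theorem eq_of_principal_of_bounded (δ₁ δ₂ : Divisor K F →+ Divisor K' F') (B : ℕ)
    (hB₁ : ∀ P Q, |δ₁ (Finsupp.single P 1) Q| ≤ B) (hB₂ : ∀ P Q, |δ₂ (Finsupp.single P 1) Q| ≤ B)
    (hprin : ∀ D ∈ Divisor.principal (K := K) (F := F), δ₁ D = δ₂ D) {D : Divisor K F}
    (hD : Divisor.degree D = 0) : δ₁ D = δ₂ D := by
  refine Finsupp.ext fun Q => sub_eq_zero.1 ?_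
  let ev : Divisor K' F' →+ ℤ := Finsupp.applyAddHom Q
  let δ : Divisor K F →+ ℤ := ev.comp δ₁ - ev.comp δ₂
  have hδ : ∀ E, δ E = δ₁ E Q - δ₂ E Q := fun E => rfl
  rw [← hδ]
  refine eq_zero_of_principal_of_bounded δ (B + B) (fun P => ?_) (fun E hE => ?_) hD
  · rw [hδ]
    push_cast
    exact (abs_sub _ _).trans (add_le_add (hB₁ P Q) (hB₂ P Q))
  · rw [hδ, hprin E hE, sub_self]

end FLTAgent.Kronecker
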