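import Fermat.Agent.Kronecker.Specialization
import Fermat.Agent.Specialization.Inputs
import Fermat.Agent.GoodModel.Final

/-!
# Good reduction of `J₀(N)` away from `N`
-/

set_option autoImplicit false

noncomputable section

open ModularCurve

namespace FLTAgent.Kronecker

theorem goodReductionAt (N : ℕ) [NeZero N] (ℓ : ℕ) (hℓ : ℓ.Prime) (hℓN : ¬ ℓ ∣ N)
    (A : ValuationSubring (AlgebraicClosure ℚ)) (hA : A.LiesOverPrime ℓ) :
    GoodReductionAt A N ℓ := by
  have : Fact ℓ.Prime := ⟨hℓ⟩
  have hgood : ∀ (M : ℕ) [NeZero M], Specialization.auxLevel ℓ ∣ M → ¬ ℓ ∣ M →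
      Specialization.GoodLevel A M := fun M _ => GoodModel.goodLevel hA M
  exact ⟨Specialization.reductionInputsModL hA hgood N hℓN,
    fun m hm z => Specialization.eq_zero_of_reductionModL_eq_zero hA hgood N hℓN
      (Specialization.reductionInputsModL hA hgood N hℓN) m hm z⟩

end FLTAgent.Kronecker
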