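import Fermat.Agent.Kronecker.Congruence
import Fermat.Agent.Frobenius.Exists
import Fermat.Agent.FrobTrace.Global
import Fermat.Prelude.Def_ModularCurve_HeckeModule

/-!
# Existence of specializations of `J₀(N)`

The special datum at `ℓ` is the quotient of `J₀(N)` by the largest Hecke stable subgroup killed
by reduction; the Frobenius relation follows from the Kronecker congruence.
-/

set_option autoImplicit false

noncomputable section

set_option synthInstance.maxHeartbeats 400000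
set_option maxHeartbeats 1000000
set_option linter.style.haveILetI false

open AlgebraicCurve ModularCurve

namespace FLTAgent.Kronecker

local notation "LL" => AlgebraicClosure ℚ
local notation "GG" => (AlgebraicClosure ℚ ≃ₐ[ℚ] AlgebraicClosure ℚ)

/-- Reduction at `A` is defined and injective on torsion prime to `ℓ`. -/
def GoodReductionAt (A : ValuationSubring LL) (N ℓ : ℕ) [NeZero N] : Prop :=
  ReductionInputsModL A N ∧
    ∀ (m : ℕ), ¬ ℓ ∣ m → ∀ z : JZero N, m • z = 0 → reductionModL A N z = 0 → z = 0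

theorem specialAut_symm {k : Type*} [Field k] (N : ℕ) (φ : k ≃+* k) :
    specialAut N φ.symm = (specialAut N φ)⁻¹ :=
  rfl

section Kernel

variable {J J₀ : Type*} [AddCommGroup J] [AddCommGroup J₀] [Module HeckeAlg J] (sp : J →+ J₀)

/-- The largest Hecke stable subgroup of the kernel of `sp`. -/
def heckeKer : Submodule HeckeAlg J where
  carrier := {x | ∀ T : HeckeAlg, sp (T • x) = 0}
  zero_mem' T := by rw [smul_zero, map_zero]
  add_mem' hx hy T := by rw [smul_add, map_add, hx T, hy T, add_zero]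
  smul_mem' U x hx T := by rw [smul_smul]; exact hx _

theorem mem_heckeKer {x : J} : x ∈ heckeKer sp ↔ ∀ T : HeckeAlg, sp (T • x) = 0 := Iff.rfl

end Kernel

/-- Specializations exist wherever the reduction is good. -/
theorem specializationExists_of_good (N p : ℕ) [NeZero N] (hcomm : HeckeOperatorsCommuteBar N)
    (hgood : ∀ (ℓ : ℕ), ℓ.Prime → ¬ ℓ ∣ N → ∀ A : ValuationSubring LL, A.LiesOverPrime ℓ →
      GoodReductionAt A N ℓ) :
    letI := heckeModuleBar N
    ∀ (_ : SMulCommClass GG HeckeAlg (JZero N)),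
      SpecializationExists (K := ℚ) (L := LL) N p (JZero N) := by
  letI := heckeModuleBar N
  intro hsc ℓ hℓ hℓNp A hA
  haveI : Fact ℓ.Prime := ⟨hℓ⟩
  haveI := FLTAgent.FrobTrace.charP_residueField hA
  have hℓN : ¬ ℓ ∣ N := fun h => hℓNp (Dvd.dvd.mul_right h p)
  have hℓp : ¬ ℓ ∣ p := fun h => hℓNp (Dvd.dvd.mul_left h N)
  obtain ⟨hin, hinj⟩ := hgood ℓ hℓ hℓN A hA
  obtain ⟨σ₀, hσ₀⟩ := FLTAgent.Frobenius.exists_isFrobeniusAt (V := A) ℓ hℓ hA
  let φ := residueAut A ⟨σ₀, hσ₀.mem_decompositionSubgroup⟩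
  have hφ : ∀ z, φ z = z ^ ℓ := fun z => hσ₀.smul_residue_eq z
  let sp₀ := reductionModL A N
  let Φ := specialAut N φ
  have hFrob : ∀ σ : GG, A.IsFrobeniusAt σ ℓ → ∀ y, sp₀ (σ • y) = Φ • sp₀ y :=
    fun σ hσ y => reductionModL_smul_of_frobenius hin hσ φ hφ y
  have hT : ∀ y, sp₀ (heckeGen ⟨ℓ, hℓ⟩ • y) = Φ • sp₀ y + ℓ • (Φ⁻¹ • sp₀ y) := fun y => by
    have e := heckeModuleBar_heckeGen_smul hcomm ⟨ℓ, hℓ⟩ y
    rw [show heckeGen ⟨ℓ, hℓ⟩ • y = _ from e]
    exact reductionModL_hecke hℓN hin φ hφ y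
  let K : Submodule HeckeAlg (JZero N) := heckeKer sp₀
  let f : JZero N →ₗ[HeckeAlg] JZero N :=
    { toFun := fun x => σ₀ • x
      map_add' := fun x y => smul_add σ₀ x y
      map_smul' := fun T x => smul_comm σ₀ T x }
  have hf : K ≤ K.comap f := by
    intro x hx T
    show sp₀ (T • (σ₀ • x)) = 0
    rw [← smul_comm σ₀ T x, hFrob σ₀ hσ₀, hx T]
    exact smul_zero (A := JZeroC (IsLocalRing.ResidueField A) N) Φ
  refine ⟨JZero N ⧸ K, inferInstance, inferInstance, K.mkQ.toAddMonoidHom,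
    (K.mapQ K f hf).toAddMonoidHom, ⟨fun T x => map_smul K.mkQ T x, ?_, ?_, ?_⟩, ?_⟩
  · intro σ hσ x
    refine (Submodule.Quotient.eq K).2 fun T => ?_
    rw [smul_sub, map_sub, ← smul_comm σ T x]
    exact sub_eq_zero.2 (reductionModL_smul_of_mem_inertia σ hσ _)
  · intro σ hσ x
    refine (Submodule.Quotient.eq K).2 fun T => ?_
    show sp₀ (T • (σ • x - σ₀ • x)) = 0
    rw [smul_sub, map_sub, ← smul_comm σ T x, ← smul_comm σ₀ T x, hFrob σ hσ, hFrob σ₀ hσ₀,
      sub_self]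
  · rintro x ⟨n, hn⟩ hx
    have h1 := (Submodule.Quotient.mk_eq_zero K).1 hx 1
    rw [one_smul] at h1
    exact hinj (p ^ n) (fun h => hℓp (hℓ.dvd_of_dvd_pow h)) x hn h1
  · intro y
    obtain ⟨x, rfl⟩ := Submodule.Quotient.mk_surjective K y
    refine (Submodule.Quotient.mk_eq_zero K).2 fun T => ?_
    show sp₀ (T • (σ₀ • σ₀ • x - heckeGen ⟨ℓ, hℓ⟩ • (σ₀ • x) + ℓ • x)) = 0
    rw [smul_add, smul_sub, smul_comm T (heckeGen ⟨ℓ, hℓ⟩), smul_comm T ℓ x,
      ← smul_comm σ₀ T (σ₀ • x), ← smul_comm σ₀ T x, map_add, map_sub, map_nsmul, hT,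
      hFrob σ₀ hσ₀, hFrob σ₀ hσ₀, inv_smul_smul, sub_add_eq_sub_sub, sub_self, zero_sub,
      neg_add_cancel]

end FLTAgent.Kronecker
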